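import Mathlib

/-!
# S33, brick (LAT.fin): the linear algebra core of (LAT) for one module (level-free)

`R` a commutative ring, `𝔫` a maximal ideal containing `p`, `X` an `R`-module with an
`R`-linear action `ρ` of a group `G` satisfying the "Cayley–Hamilton" relations
`g² - t(g) g + ε(g) = 0` (`t : G → R`, `ε : G → ℤ` a lift of a character `ω : G → 𝔽_pˣ`).
`I ≤ G` a subgroup (inertia) on which `ω` is not trivial, `𝒳 ≤ X` a subgroup containing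
`(τ - 1) X` for `τ ∈ I` (the classes which are trivial at the two Gauss valuations).

Hypotheses (all as bare hypotheses):
* `(TR)`  `t σ - 1 - ε σ ∈ 𝔫` for `σ ∈ I`;
* `(NC)`  there is no character `λ : G → (R/𝔫)ˣ` with `λ² - t λ + ε = 0`;
* `(GeoI)`  a `p`-torsion element of `𝒳` fixed by `I` is `0`;
* `(GeoII0)` a `p`-torsion element `x` of `𝒳` such that every `s x - x` (`s ∈ I`) is an
  `ε`-eigenvector of `I` is fixed by `I₁ = I ∩ ker ω`.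

Conclusion (`lat_fin`): on the `𝔫`-primary part of `X`,
`(ρ σ - ε σ) (ρ τ - 1) = 0` for all `σ, τ ∈ I`.
-/

set_option autoImplicit false

namespace Fermat.Agent.S33.Lat.Finite

/-! ### Generalities -/

/-- Integers congruent modulo `p` act in the same way on a `p`-torsion element. -/
theorem zsmul_eq_of_dvd_sub {X : Type*} [AddCommGroup X] {p : ℕ} {v : X} (hv : p • v = 0)
    {m n : ℤ} (h : (p : ℤ) ∣ m - n) : m • v = n • v := by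
  obtain ⟨d, hd⟩ := h
  have hm : m = n + d * (p : ℤ) := by linarith
  rw [hm, add_smul, mul_smul, natCast_zsmul, hv, smul_zero, add_zero]

/-- An integer prime to `p` acts injectively on `p`-power torsion. -/
theorem eq_zero_of_zsmul_eq_zero {X : Type*} [AddCommGroup X] {p : ℕ} (hp : p.Prime) {m : ℤ}
    (hm : ¬ (p : ℤ) ∣ m) {y : X} {j : ℕ} (hy : p ^ j • y = 0) (h : m • y = 0) : y = 0 := by
  have h1 : Nat.Coprime p m.natAbs :=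
    (Nat.Prime.coprime_iff_not_dvd hp).2 (fun hd => hm (Int.natCast_dvd.2 hd))
  have h2 : IsCoprime (p : ℤ) m := by
    rw [Int.isCoprime_iff_gcd_eq_one, Int.gcd_eq_natAbs, Int.natAbs_natCast]
    exact h1
  obtain ⟨u, w, huw⟩ := h2.pow_left (m := j)
  have hy' : ((p : ℤ) ^ j) • y = 0 := by
    rw [← Nat.cast_pow, natCast_zsmul, hy]
  calc y = (1 : ℤ) • y := (one_smul _ _).symm
    _ = (u * (p : ℤ) ^ j + w * m) • y := by rw [huw]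
    _ = 0 := by rw [add_smul, mul_smul, mul_smul, hy', h, smul_zero, smul_zero, add_zero]

/-! ### The setting -/

section Main

variable {p : ℕ} [Fact p.Prime] {R X G : Type*} [CommRing R] [AddCommGroup X] [Module R X]
  [Group G]

/-- The `𝔫`-primary part of a module. -/
def prim (𝔫 : Ideal R) (X : Type*) [AddCommGroup X] [Module R X] : Submodule R X where
  carrier := {x | ∃ k : ℕ, ∀ a ∈ 𝔫 ^ k, a • x = 0}
  add_mem' := by
    rintro x y ⟨k, hk⟩ ⟨l, hl⟩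
    refine ⟨max k l, fun a ha => ?_⟩
    rw [smul_add, hk a (Ideal.pow_le_pow_right (le_max_left k l) ha),
      hl a (Ideal.pow_le_pow_right (le_max_right k l) ha), add_zero]
  zero_mem' := ⟨0, fun a _ => smul_zero a⟩
  smul_mem' := by
    rintro r x ⟨k, hk⟩
    exact ⟨k, fun a ha => by rw [smul_comm, hk a ha, smul_zero]⟩

theorem mem_prim {𝔫 : Ideal R} {x : X} : x ∈ prim 𝔫 X ↔ ∃ k : ℕ, ∀ a ∈ 𝔫 ^ k, a • x = 0 :=
  Iff.rfl

/-- The primary part is stable under linear endomorphisms. -/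
theorem map_mem_prim {𝔫 : Ideal R} (f : Module.End R X) {x : X} (hx : x ∈ prim 𝔫 X) :
    f x ∈ prim 𝔫 X := by
  obtain ⟨k, hk⟩ := hx
  exact ⟨k, fun a ha => by rw [← map_smul, hk a ha, map_zero]⟩

omit [Fact p.Prime] in
/-- Elements of the primary part are killed by a power of `p` when `p ∈ 𝔫`. -/
theorem exists_pow_nsmul_eq_zero {𝔫 : Ideal R} (hp𝔫 : (p : R) ∈ 𝔫) {x : X}
    (hx : x ∈ prim 𝔫 X) : ∃ j : ℕ, p ^ j • x = 0 := by
  obtain ⟨k, hk⟩ := hx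
  refine ⟨k, ?_⟩
  have h := hk ((p : R) ^ k) (Ideal.pow_mem_pow hp𝔫 k)
  rw [← Nat.cast_pow, Nat.cast_smul_eq_nsmul] at h
  exact h

/-- A nonzero element of the primary part has a nonzero multiple killed by `𝔫`. -/
theorem exists_smul_ne_zero_torsion {𝔫 : Ideal R} :
    ∀ (k : ℕ) (x : X), x ≠ 0 → (∀ a ∈ 𝔫 ^ k, a • x = 0) →
      ∃ b : R, b • x ≠ 0 ∧ ∀ a ∈ 𝔫, a • b • x = 0 := by
  intro k
  induction k with
  | zero =>
    intro x hx h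
    exact absurd (by simpa using h 1 (by simp)) hx
  | succ k ih =>
    intro x hx h
    by_cases hall : ∀ a ∈ 𝔫, a • x = 0
    · exact ⟨1, by rwa [one_smul], fun a ha => by rw [one_smul, hall a ha]⟩
    · simp only [not_forall] at hall
      obtain ⟨a, ha, hax⟩ := hall
      obtain ⟨b, hb, hb'⟩ := ih (a • x) hax (fun a' ha' => by
        rw [smul_smul]
        exact h _ (by rw [pow_succ]; exact Ideal.mul_mem_mul ha' ha))
      exact ⟨b * a, by rwa [mul_smul], fun a' ha' => by rw [mul_smul]; exact hb' a' ha'⟩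

/-- A nonzero element killed by a maximal ideal `𝔫` is only killed by `𝔫`. -/
theorem mem_of_smul_eq_zero {𝔫 : Ideal R} [h𝔫 : 𝔫.IsMaximal] {v : X} (hv0 : v ≠ 0)
    (hv : ∀ a ∈ 𝔫, a • v = 0) {r : R} (hr : r • v = 0) : r ∈ 𝔫 := by
  by_contra hrn
  obtain ⟨d, i, hi, hd⟩ := h𝔫.exists_inv hrn
  apply hv0
  calc v = (1 : R) • v := (one_smul _ _).symm
    _ = (d * r + i) • v := by rw [hd]
    _ = 0 := by rw [add_smul, mul_smul, hr, smul_zero, hv i hi, add_zero]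


variable (ρ : Representation R G X) (t : G → R) (ε : G → ℤ)

/-- **The key relation**: `(g - ε) (g - 1) = (t - 1 - ε) g`, elementwise. -/
theorem key_rel_apply (hrel : ∀ g x, ρ g (ρ g x) - t g • ρ g x + ε g • x = 0) (g : G) (x : X) :
    ρ g (ρ g x - x) - ε g • (ρ g x - x) = (t g - 1 - (ε g : R)) • ρ g x := by
  have h1 : ρ g (ρ g x) = t g • ρ g x - ε g • x :=
    eq_of_sub_eq_zero (by rw [← hrel g x]; abel)
  rw [map_sub, h1, sub_smul, sub_smul, one_smul, Int.cast_smul_eq_zsmul, smul_sub]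
  abel

variable (ω : G →* (ZMod p)ˣ)

theorem omega_eq_one_iff (hω : ∀ g, ((ω g : (ZMod p)ˣ) : ZMod p) = ((ε g : ℤ) : ZMod p))
    (g : G) : ω g = 1 ↔ (p : ℤ) ∣ ε g - 1 := by
  rw [← ZMod.intCast_zmod_eq_zero_iff_dvd, Int.cast_sub, Int.cast_one, sub_eq_zero, ← hω g]
  constructor
  · intro h
    rw [h, Units.val_one]
  · intro h
    exact Units.ext (by rw [h, Units.val_one])

theorem not_dvd_eps (hω : ∀ g, ((ω g : (ZMod p)ˣ) : ZMod p) = ((ε g : ℤ) : ZMod p)) (g : G) :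
    ¬ (p : ℤ) ∣ ε g := by
  rw [← ZMod.intCast_zmod_eq_zero_iff_dvd, ← hω g]
  exact Units.ne_zero _

/-- A generator of the cyclic group `ω(I)`. -/
theorem exists_gen (I : Subgroup G) (hI : ∃ τ₀ ∈ I, ω τ₀ ≠ 1) :
    ∃ τ₀ ∈ I, ω τ₀ ≠ 1 ∧ ∀ σ ∈ I, ∃ k : ℕ, ω σ = ω τ₀ ^ k := by
  obtain ⟨τ₁, hτ₁, hτ₁1⟩ := hI
  obtain ⟨⟨h, hh⟩, hgen⟩ := IsCyclic.exists_monoid_generator (α := ↥(I.map ω))
  obtain ⟨τ₀, hτ₀, rfl⟩ := Subgroup.mem_map.1 hh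
  have hpow : ∀ σ ∈ I, ∃ k : ℕ, ω σ = ω τ₀ ^ k := by
    intro σ hσ
    obtain ⟨k, hk⟩ := (Submonoid.mem_powers_iff _ _).1
      (hgen ⟨ω σ, Subgroup.mem_map_of_mem ω hσ⟩)
    refine ⟨k, ?_⟩
    have h2 := congrArg Subtype.val hk
    simpa using h2.symm
  refine ⟨τ₀, hτ₀, ?_, hpow⟩
  intro h1
  obtain ⟨k, hk⟩ := hpow τ₁ hτ₁
  rw [h1, one_pow] at hk
  exact hτ₁1 hk

/-! ### Step 0 -/

/-- **Step 0.**  Let `V ≤ 𝒳` be an `I`-stable subgroup of `p`-torsion elements on which the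
relations `(τ - 1) (τ - ε τ) = 0`, `τ ∈ I`, hold exactly.  Then every `σ ∈ I` acts on `V` through
the integer scalar `ε σ`. -/
theorem step0 (hω : ∀ g, ((ω g : (ZMod p)ˣ) : ZMod p) = ((ε g : ℤ) : ZMod p))
    (I : Subgroup G) {τ₀ : G} (hτ₀ : τ₀ ∈ I) (hτ₀1 : ω τ₀ ≠ 1)
    (hgen : ∀ σ ∈ I, ∃ k : ℕ, ω σ = ω τ₀ ^ k)
    (𝒳 : AddSubgroup X)
    (hGeoI : ∀ x ∈ 𝒳, p • x = 0 → (∀ τ ∈ I, ρ τ x = x) → x = 0)
    (hGeoII0 : ∀ x ∈ 𝒳, p • x = 0 →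
      (∀ s ∈ I, ∀ τ ∈ I, ρ τ (ρ s x - x) = ε τ • (ρ s x - x)) →
      ∀ s ∈ I, ω s = 1 → ρ s x = x)
    (V : AddSubgroup X) (hV𝒳 : V ≤ 𝒳) (hVp : ∀ v ∈ V, p • v = 0)
    (hVI : ∀ τ ∈ I, ∀ v ∈ V, ρ τ v ∈ V)
    (hVrel : ∀ τ ∈ I, ∀ v ∈ V, ρ τ (ρ τ v - v) = ε τ • (ρ τ v - v)) :
    ∀ σ ∈ I, ∀ v ∈ V, ρ σ v = ε σ • v := by
  have hp : p.Prime := Fact.out
  -- congruent scalars act in the same way on `V`
  have hcong : ∀ {g h : G}, ω g = ω h → ∀ v ∈ V, ε g • v = ε h • v := by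
    intro g h hgh v hv
    apply zsmul_eq_of_dvd_sub (hVp v hv)
    rw [← ZMod.intCast_zmod_eq_zero_iff_dvd, Int.cast_sub, ← hω g, ← hω h, hgh, sub_self]
  have hone : ∀ {g : G}, ω g = 1 → ∀ v ∈ V, ε g • v = v := by
    intro g hg v hv
    have h1 : ε g • v = (1 : ℤ) • v :=
      zsmul_eq_of_dvd_sub (hVp v hv) ((omega_eq_one_iff ε ω hω g).1 hg)
    rw [h1, one_smul]
  have hε₀ : ¬ (p : ℤ) ∣ ε τ₀ := not_dvd_eps ε ω hω τ₀
  have hε₀1 : ¬ (p : ℤ) ∣ ε τ₀ - 1 := fun h => hτ₀1 ((omega_eq_one_iff ε ω hω τ₀).2 h)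
  have hcancel : ∀ {m : ℤ}, ¬ (p : ℤ) ∣ m → ∀ v ∈ V, m • v = 0 → v = 0 :=
    fun {m} hm v hv h =>
      eq_zero_of_zsmul_eq_zero hp hm (j := 1) (by rw [pow_one]; exact hVp v hv) h
  have hinv : ∀ (g : G) (w : X), ρ g w = 0 → w = 0 := by
    intro g w h
    have h3 : ρ g⁻¹ (ρ g w) = w := by
      rw [← Module.End.mul_apply, ← map_mul, inv_mul_cancel, map_one, Module.End.one_apply]
    rw [← h3, h, map_zero]
  -- the elements of `I₁` are unipotent of level two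
  have hs2 : ∀ s ∈ I, ω s = 1 → ∀ v ∈ V, ρ s (ρ s v) = ρ s v + ρ s v - v := by
    intro s hs hs1 v hv
    have h := hVrel s hs v hv
    rw [hone hs1 _ (V.sub_mem (hVI s hs v hv) hv), map_sub] at h
    rw [← sub_eq_zero] at h ⊢
    rw [← h]
    abel
  -- (F1) `s - 1` maps the `ε τ₀`-eigenspace of `τ₀` into the fixed space of `τ₀`
  have hF1 : ∀ s ∈ I, ω s = 1 → ∀ c ∈ V, ρ τ₀ c = ε τ₀ • c →
      ρ τ₀ (ρ s c - c) = ρ s c - c := by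
    intro s hs hs1 c hc hTc
    have hsc : ρ s c ∈ V := hVI s hs c hc
    have hTsc : ρ τ₀ (ρ s c) ∈ V := hVI τ₀ hτ₀ _ hsc
    have hg : s * τ₀ ∈ I := I.mul_mem hs hτ₀
    have hωg : ω (s * τ₀) = ω τ₀ := by rw [map_mul, hs1, one_mul]
    have h1 : ρ (s * τ₀) c = ε τ₀ • ρ s c := by
      rw [map_mul, Module.End.mul_apply, hTc, map_zsmul]
    have h2 := hVrel (s * τ₀) hg c hc
    rw [hcong hωg _ (V.sub_mem (hVI _ hg c hc) hc), h1, map_mul, Module.End.mul_apply] at h2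
    simp only [map_sub, map_zsmul, hTc] at h2
    -- h2 : ε τ₀ • ρ s (ρ τ₀ (ρ s c)) - ε τ₀ • ρ s c = ε τ₀ • (ε τ₀ • ρ s c - c)
    have h3 : ρ s (ρ τ₀ (ρ s c)) = ρ s c + ε τ₀ • ρ s c - c := by
      rw [← sub_eq_zero]
      apply hcancel hε₀ _
        (V.sub_mem (hVI s hs _ hTsc) (V.sub_mem (V.add_mem hsc (V.zsmul_mem hsc _)) hc))
      rw [← sub_eq_zero] at h2
      rw [← h2]
      simp only [smul_sub, smul_add]
      abel
    have h4 := hs2 s hs hs1 c hc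
    rw [← sub_eq_zero]
    apply hinv s
    simp only [map_sub, map_zsmul, hTc, h3, h4]
    abel
  -- (F2) `s - 1` maps the fixed space of `τ₀` into the `ε τ₀`-eigenspace
  have hF2 : ∀ s ∈ I, ω s = 1 → ∀ c ∈ V, ρ τ₀ c = c →
      ρ τ₀ (ρ s c - c) = ε τ₀ • (ρ s c - c) := by
    intro s hs hs1 c hc hTc
    have hg : s * τ₀ ∈ I := I.mul_mem hs hτ₀
    have hωg : ω (s * τ₀) = ω τ₀ := by rw [map_mul, hs1, one_mul]
    have h1 : ρ (s * τ₀) c = ρ s c := by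
      rw [map_mul, Module.End.mul_apply, hTc]
    have h2 := hVrel (s * τ₀) hg c hc
    rw [hcong hωg _ (V.sub_mem (hVI _ hg c hc) hc), h1, map_mul, Module.End.mul_apply] at h2
    simp only [map_sub, hTc] at h2
    -- h2 : ρ s (ρ τ₀ (ρ s c)) - ρ s c = ε τ₀ • (ρ s c - c)
    have h4 := hs2 s hs hs1 c hc
    rw [← sub_eq_zero]
    apply hinv s
    simp only [map_sub, map_zsmul, hTc, h4]
    rw [← sub_eq_zero] at h2
    rw [← h2]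
    simp only [smul_sub, smul_add]
    abel
  -- (F3) the image of `s - 1` on the eigenspace is fixed by `I₁`
  have hF3 : ∀ s ∈ I, ω s = 1 → ∀ s' ∈ I, ω s' = 1 → ∀ c ∈ V, ρ τ₀ c = ε τ₀ • c →
      ρ s' (ρ s c - c) = ρ s c - c := by
    intro s hs hs1 s' hs' hs'1 c hc hTc
    have hy : ρ s c - c ∈ V := V.sub_mem (hVI s hs c hc) hc
    have hTy : ρ τ₀ (ρ s c - c) = ρ s c - c := hF1 s hs hs1 c hc hTc
    have hz : ρ s' (ρ s c - c) - (ρ s c - c) ∈ V := V.sub_mem (hVI s' hs' _ hy) hy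
    have h1 : ρ τ₀ (ρ s' (ρ s c - c) - (ρ s c - c))
        = ε τ₀ • (ρ s' (ρ s c - c) - (ρ s c - c)) := hF2 s' hs' hs'1 _ hy hTy
    have h2 : ρ τ₀ (ρ (s' * s) c - c) = ρ (s' * s) c - c :=
      hF1 (s' * s) (I.mul_mem hs' hs) (by rw [map_mul, hs'1, hs1, one_mul]) c hc hTc
    have h3 : ρ τ₀ (ρ s' c - c) = ρ s' c - c := hF1 s' hs' hs'1 c hc hTc
    have h4 : ρ s' (ρ s c - c) - (ρ s c - c)
        = (ρ (s' * s) c - c) - (ρ s' c - c) - (ρ s c - c) := by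
      rw [map_mul, Module.End.mul_apply, map_sub]
      abel
    have h5 : ρ τ₀ (ρ s' (ρ s c - c) - (ρ s c - c)) = ρ s' (ρ s c - c) - (ρ s c - c) := by
      rw [h4, map_sub, map_sub, h2, h3, hTy]
    rw [← sub_eq_zero]
    apply hcancel hε₀1 _ hz
    rw [sub_smul, one_smul, ← h1, h5, sub_self]
  -- every `σ ∈ I` is `s * τ₀ ^ k` with `s ∈ I₁`
  have hdec : ∀ σ ∈ I, ∃ (k : ℕ) (s : G), s ∈ I ∧ ω s = 1 ∧ σ = s * τ₀ ^ k := by
    intro σ hσ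
    obtain ⟨k, hk⟩ := hgen σ hσ
    refine ⟨k, σ * (τ₀ ^ k)⁻¹, I.mul_mem hσ (I.inv_mem (I.pow_mem hτ₀ k)), ?_, ?_⟩
    · rw [map_mul, map_inv, map_pow, hk, mul_inv_cancel]
    · rw [inv_mul_cancel_right]
  have hTfix : ∀ (c : X), ρ τ₀ c = c → ∀ k : ℕ, ρ (τ₀ ^ k) c = c := by
    intro c hTc k
    induction k with
    | zero => rw [pow_zero, map_one, Module.End.one_apply]
    | succ k ih => rw [pow_succ, map_mul, Module.End.mul_apply, hTc, ih]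
  have hTpow : ∀ (c : X), ρ τ₀ c = ε τ₀ • c → ∀ k : ℕ, ρ (τ₀ ^ k) c = ε τ₀ ^ k • c := by
    intro c hTc k
    induction k with
    | zero => rw [pow_zero, map_one, Module.End.one_apply, pow_zero, one_smul]
    | succ k ih =>
      rw [pow_succ, map_mul, Module.End.mul_apply, hTc, map_zsmul, ih, pow_succ, mul_smul,
        smul_comm]
  -- `I` acts through `ε` on the `ε τ₀`-eigenspace of `τ₀`
  have hD : ∀ c ∈ V, ρ τ₀ c = ε τ₀ • c → ∀ σ ∈ I, ρ σ c = ε σ • c := by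
    intro c hc hTc
    have hfix1 : ∀ s ∈ I, ω s = 1 → ρ s c = c := by
      intro s hs hs1
      have hy : ρ s c - c ∈ V := V.sub_mem (hVI s hs c hc) hc
      have hTy : ρ τ₀ (ρ s c - c) = ρ s c - c := hF1 s hs hs1 c hc hTc
      apply sub_eq_zero.1
      apply hGeoI _ (hV𝒳 hy) (hVp _ hy)
      intro σ hσ
      obtain ⟨k, s', hs', hs'1, rfl⟩ := hdec σ hσ
      rw [map_mul, Module.End.mul_apply, hTfix _ hTy k]
      exact hF3 s hs hs1 s' hs' hs'1 c hc hTc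
    intro σ hσ
    obtain ⟨k, s, hs, hs1, rfl⟩ := hdec σ hσ
    rw [map_mul, Module.End.mul_apply, hTpow c hTc k, map_zsmul, hfix1 s hs hs1]
    symm
    apply zsmul_eq_of_dvd_sub (hVp c hc)
    rw [← ZMod.intCast_zmod_eq_zero_iff_dvd, Int.cast_sub, Int.cast_pow, ← hω, ← hω, map_mul,
      hs1, one_mul, map_pow, Units.val_pow_eq_pow_val, sub_self]
  -- the fixed space of `τ₀` is zero
  have hE : ∀ c ∈ V, ρ τ₀ c = c → c = 0 := by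
    intro c hc hTc
    have hsub : ∀ σ ∈ I, ρ σ c - c ∈ V ∧ ρ τ₀ (ρ σ c - c) = ε τ₀ • (ρ σ c - c) := by
      intro σ hσ
      obtain ⟨k, s, hs, hs1, rfl⟩ := hdec σ hσ
      have h1 : ρ (s * τ₀ ^ k) c = ρ s c := by
        rw [map_mul, Module.End.mul_apply, hTfix c hTc k]
      rw [h1]
      exact ⟨V.sub_mem (hVI s hs c hc) hc, hF2 s hs hs1 c hc hTc⟩
    have hI1 : ∀ s ∈ I, ω s = 1 → ρ s c = c :=
      hGeoII0 c (hV𝒳 hc) (hVp c hc)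
        (fun s hs τ hτ => hD _ (hsub s hs).1 (hsub s hs).2 τ hτ)
    apply hGeoI c (hV𝒳 hc) (hVp c hc)
    intro σ hσ
    obtain ⟨k, s, hs, hs1, rfl⟩ := hdec σ hσ
    rw [map_mul, Module.End.mul_apply, hTfix c hTc k, hI1 s hs hs1]
  -- conclusion
  intro σ hσ v hv
  refine hD v hv ?_ σ hσ
  have hw : ρ τ₀ v - ε τ₀ • v ∈ V := V.sub_mem (hVI τ₀ hτ₀ v hv) (V.zsmul_mem hv _)
  have hTw : ρ τ₀ (ρ τ₀ v - ε τ₀ • v) = ρ τ₀ v - ε τ₀ • v := by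
    have h := hVrel τ₀ hτ₀ v hv
    rw [map_sub, smul_sub] at h
    rw [map_sub, map_zsmul, ← sub_eq_zero]
    rw [← sub_eq_zero] at h
    rw [← h]
    abel
  exact sub_eq_zero.1 (hE _ hw hTw)

/-! ### The character of Step 1 -/

/-- **A common eigenvector gives a character.**  If `v₀ ≠ 0` is killed by `𝔫` and is an
eigenvector of every `ρ g`, the eigenvalues form a character `G → (R/𝔫)ˣ` satisfying the
relation `λ² - t λ + ε = 0`. -/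
theorem exists_character (𝔫 : Ideal R) [h𝔫 : 𝔫.IsMaximal]
    (hrel : ∀ g x, ρ g (ρ g x) - t g • ρ g x + ε g • x = 0)
    {v₀ : X} (hv₀ : v₀ ≠ 0) (hv𝔫 : ∀ a ∈ 𝔫, a • v₀ = 0) (heig : ∀ g, ∃ r : R, ρ g v₀ = r • v₀) :
    ∃ lam : G →* (R ⧸ 𝔫)ˣ, ∀ g, ((lam g : (R ⧸ 𝔫)ˣ) : R ⧸ 𝔫) ^ 2
      - Ideal.Quotient.mk 𝔫 (t g) * (lam g : R ⧸ 𝔫) + ((ε g : ℤ) : R ⧸ 𝔫) = 0 := by
  choose rf hrf using heig
  have hmem : ∀ {r : R}, r • v₀ = 0 → Ideal.Quotient.mk 𝔫 r = 0 := fun {r} hr =>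
    Ideal.Quotient.eq_zero_iff_mem.2 (mem_of_smul_eq_zero hv₀ hv𝔫 hr)
  have hmul : ∀ g h, Ideal.Quotient.mk 𝔫 (rf (g * h))
      = Ideal.Quotient.mk 𝔫 (rf g) * Ideal.Quotient.mk 𝔫 (rf h) := by
    intro g h
    rw [← map_mul, ← sub_eq_zero, ← map_sub]
    apply hmem
    rw [sub_smul, ← hrf (g * h), map_mul, Module.End.mul_apply, hrf h, map_smul, hrf g, smul_smul,
      mul_comm, sub_self]
  have hone : Ideal.Quotient.mk 𝔫 (rf 1) = 1 := by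
    rw [← map_one (Ideal.Quotient.mk 𝔫), ← sub_eq_zero, ← map_sub]
    apply hmem
    rw [sub_smul, ← hrf 1, map_one, Module.End.one_apply, one_smul, sub_self]
  let f : G →* (R ⧸ 𝔫) :=
    { toFun := fun g => Ideal.Quotient.mk 𝔫 (rf g)
      map_one' := hone
      map_mul' := hmul }
  refine ⟨f.toHomUnits, ?_⟩
  intro g
  rw [MonoidHom.coe_toHomUnits]
  show Ideal.Quotient.mk 𝔫 (rf g) ^ 2 - Ideal.Quotient.mk 𝔫 (t g) * Ideal.Quotient.mk 𝔫 (rf g)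
    + ((ε g : ℤ) : R ⧸ 𝔫) = 0
  have hcast : ((ε g : ℤ) : R ⧸ 𝔫) = Ideal.Quotient.mk 𝔫 ((ε g : ℤ) : R) := (map_intCast _ _).symm
  rw [hcast, ← map_pow, ← map_mul, ← map_sub, ← map_add]
  apply hmem
  have h := hrel g v₀
  rw [hrf g, map_smul, hrf g] at h
  rw [add_smul, sub_smul, pow_two, mul_smul, mul_smul, Int.cast_smul_eq_zsmul]
  exact h

/-! ### The main theorem -/

/-- **(LAT), finite level.**  On the `𝔫`-primary part, `(ρ σ - ε σ) (ρ τ - 1) = 0` for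
`σ, τ ∈ I`. -/
theorem lat_fin (𝔫 : Ideal R) [h𝔫 : 𝔫.IsMaximal] (hp𝔫 : (p : R) ∈ 𝔫)
    (ρ : Representation R G X) (t : G → R) (ε : G → ℤ) (ω : G →* (ZMod p)ˣ)
    (hω : ∀ g, ((ω g : (ZMod p)ˣ) : ZMod p) = ((ε g : ℤ) : ZMod p))
    (hrel : ∀ g x, ρ g (ρ g x) - t g • ρ g x + ε g • x = 0)
    (hεmul : ∀ g h, ∀ x : X, ε (g * h) • x = ε g • ε h • x)
    (I : Subgroup G) (hI : ∃ τ₀ ∈ I, ω τ₀ ≠ 1)
    (hTR : ∀ σ ∈ I, t σ - 1 - (ε σ : R) ∈ 𝔫)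
    (hNC : ¬ ∃ lam : G →* (R ⧸ 𝔫)ˣ, ∀ g, ((lam g : (R ⧸ 𝔫)ˣ) : R ⧸ 𝔫) ^ 2
      - Ideal.Quotient.mk 𝔫 (t g) * (lam g : R ⧸ 𝔫) + ((ε g : ℤ) : R ⧸ 𝔫) = 0)
    (𝒳 : AddSubgroup X) (hGA : ∀ τ ∈ I, ∀ x : X, ρ τ x - x ∈ 𝒳)
    (hGeoI : ∀ x ∈ 𝒳, p • x = 0 → (∀ τ ∈ I, ρ τ x = x) → x = 0)
    (hGeoII0 : ∀ x ∈ 𝒳, p • x = 0 →
      (∀ s ∈ I, ∀ τ ∈ I, ρ τ (ρ s x - x) = ε τ • (ρ s x - x)) →
      ∀ s ∈ I, ω s = 1 → ρ s x = x)
    {x : X} (hx : ∃ k : ℕ, ∀ a ∈ 𝔫 ^ k, a • x = 0) {σ τ : G} (hσ : σ ∈ I) (hτ : τ ∈ I) :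
    ρ σ (ρ τ x - x) - ε σ • (ρ τ x - x) = 0 := by
  have hp : p.Prime := Fact.out
  obtain ⟨τ₀, hτ₀, hτ₀ne, hgen⟩ := exists_gen ω I hI
  have hτ₀1 : ¬ (p : ℤ) ∣ ε τ₀ - 1 := fun h => hτ₀ne ((omega_eq_one_iff ε ω hω τ₀).2 h)
  have hstab : ∀ τ ∈ I, ∀ y ∈ 𝒳, ρ τ y ∈ 𝒳 := by
    intro τ hτ y hy
    have h := 𝒳.add_mem (hGA τ hτ y) hy
    rwa [sub_add_cancel] at h
  have hx : x ∈ prim 𝔫 X := hx
  have hS0 := step0 ρ ε ω hω I hτ₀ hτ₀ne hgen 𝒳 hGeoI hGeoII0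
  -- `a_τ • m ∈ 𝒳` for `τ ∈ I`
  have ha𝒳 : ∀ τ ∈ I, ∀ m : X, (t τ - 1 - (ε τ : R)) • m ∈ 𝒳 := by
    intro τ hτ m
    have h1 : ρ τ (ρ τ⁻¹ m) = m := by
      rw [← Module.End.mul_apply, ← map_mul, mul_inv_cancel, map_one, Module.End.one_apply]
    have h3 := key_rel_apply ρ t ε hrel τ (ρ τ⁻¹ m)
    rw [h1] at h3
    have hmem : m - ρ τ⁻¹ m ∈ 𝒳 := by
      have h4 := hGA τ hτ (ρ τ⁻¹ m)
      rwa [h1] at h4
    rw [← h3]
    exact 𝒳.sub_mem (hstab τ hτ _ hmem) (𝒳.zsmul_mem hmem _)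
  -- Step 1: `a_τ` kills the primary part
  have hkill : ∀ τ ∈ I, ∀ m ∈ prim 𝔫 X, (t τ - 1 - (ε τ : R)) • m = 0 := by
    by_contra hcon
    simp only [not_forall] at hcon
    obtain ⟨τ₁, hτ₁, m₁, hm₁, hne⟩ := hcon
    let S₁ : Set X := {y | (∃ τ ∈ I, ∃ m ∈ prim 𝔫 X, y = (t τ - 1 - (ε τ : R)) • m) ∧
      ∀ a ∈ 𝔫, a • y = 0}
    let V : AddSubgroup X := AddSubgroup.closure S₁
    have hV𝒳 : V ≤ 𝒳 := (AddSubgroup.closure_le 𝒳).2 (by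
      rintro y ⟨⟨τ, hτ, m, -, rfl⟩, -⟩
      exact ha𝒳 τ hτ m)
    have hV𝔫 : ∀ v ∈ V, ∀ a ∈ 𝔫, a • v = 0 := by
      intro v hv a ha
      have hle : V ≤ (LinearMap.ker (LinearMap.lsmul R X a)).toAddSubgroup :=
        (AddSubgroup.closure_le _).2 (by
          rintro y ⟨-, hy⟩
          exact hy a ha)
      exact hle hv
    have hVp : ∀ v ∈ V, p • v = 0 := by
      intro v hv
      have := hV𝔫 v hv _ hp𝔫
      rwa [Nat.cast_smul_eq_nsmul] at this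
    have hVG : ∀ (g : G), ∀ v ∈ V, ρ g v ∈ V := by
      intro g v hv
      have hle : V ≤ V.comap (ρ g).toAddMonoidHom :=
        (AddSubgroup.closure_le _).2 (by
          rintro y ⟨⟨τ, hτ, m, hm, rfl⟩, hy⟩
          refine AddSubgroup.subset_closure ⟨⟨τ, hτ, ρ g m, map_mem_prim (ρ g) hm, ?_⟩, ?_⟩
          · exact map_smul (ρ g) _ _
          · intro a ha
            show a • ρ g ((t τ - 1 - (ε τ : R)) • m) = 0
            rw [← map_smul, hy a ha, map_zero])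
      exact hle hv
    -- a nonzero element of `V`
    obtain ⟨k, hk⟩ := (Submodule.smul_mem _ (t τ₁ - 1 - (ε τ₁ : R)) hm₁ :
      (t τ₁ - 1 - (ε τ₁ : R)) • m₁ ∈ prim 𝔫 X)
    obtain ⟨b, hb, hb'⟩ := exists_smul_ne_zero_torsion k _ hne hk
    have hv₀V : b • (t τ₁ - 1 - (ε τ₁ : R)) • m₁ ∈ V :=
      AddSubgroup.subset_closure ⟨⟨τ₁, hτ₁, b • m₁, Submodule.smul_mem _ b hm₁, smul_comm _ _ _⟩,
        hb'⟩
    set v₀ := b • (t τ₁ - 1 - (ε τ₁ : R)) • m₁ with hv₀def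
    have hVrel : ∀ τ ∈ I, ∀ v ∈ V, ρ τ (ρ τ v - v) = ε τ • (ρ τ v - v) := by
      intro τ hτ v hv
      have h3 := key_rel_apply ρ t ε hrel τ v
      rw [hV𝔫 _ (hVG τ v hv) _ (hTR τ hτ)] at h3
      exact sub_eq_zero.1 h3
    have hact := hS0 V hV𝒳 hVp (fun τ _ => hVG τ) hVrel
    -- every `g` has `v₀` as an eigenvector
    have heig : ∀ g, ∃ r : R, ρ g v₀ = r • v₀ := by
      intro g
      have hw : ρ g v₀ ∈ V := hVG g v₀ hv₀V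
      have hgw : ρ g (ρ g v₀) ∈ V := hVG g _ hw
      have hε₀ : ¬ (p : ℤ) ∣ ε τ₀ := not_dvd_eps ε ω hω τ₀
      -- the relation of `τ₀ g`
      have h1 := hrel (τ₀ * g) v₀
      have e1 : ρ (τ₀ * g) v₀ = ε τ₀ • ρ g v₀ := by
        rw [map_mul, Module.End.mul_apply, hact τ₀ hτ₀ _ hw]
      have e2 : ρ (τ₀ * g) (ρ g v₀) = ε τ₀ • ρ g (ρ g v₀) := by
        rw [map_mul, Module.End.mul_apply, hact τ₀ hτ₀ _ hgw]
      rw [e1, map_zsmul, e2, hεmul τ₀ g v₀] at h1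
      -- cancel `ε τ₀`
      have hB : ε τ₀ • ρ g (ρ g v₀) - t (τ₀ * g) • ρ g v₀ + ε g • v₀ = 0 := by
        apply eq_zero_of_zsmul_eq_zero hp hε₀ (j := 1) (m := ε τ₀)
        · rw [pow_one, nsmul_add, nsmul_sub, ← smul_comm (ε τ₀) p, hVp _ hgw, smul_zero,
            ← smul_comm (t (τ₀ * g)) p, hVp _ hw, smul_zero, ← smul_comm (ε g) p, hVp _ hv₀V,
            smul_zero, sub_zero, add_zero]
        · rw [← h1, smul_add, smul_sub, smul_comm (ε τ₀) (t (τ₀ * g))]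
      have h2 := hrel g v₀
      -- the eigen-relation
      have hE : ((ε τ₀ : R) * t g - t (τ₀ * g)) • ρ g v₀ = ((ε τ₀ - 1) * ε g) • v₀ := by
        have h2' : ε τ₀ • (ρ g (ρ g v₀) - t g • ρ g v₀ + ε g • v₀) = 0 := by rw [h2, smul_zero]
        rw [smul_add, smul_sub] at h2'
        rw [sub_smul, mul_smul, Int.cast_smul_eq_zsmul, mul_smul, sub_smul, one_smul]
        rw [← sub_eq_zero]
        have : ε τ₀ • t g • ρ g v₀ - t (τ₀ * g) • ρ g v₀ - (ε τ₀ • ε g • v₀ - ε g • v₀)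
            = (ε τ₀ • ρ g (ρ g v₀) - t (τ₀ * g) • ρ g v₀ + ε g • v₀)
              - (ε τ₀ • ρ g (ρ g v₀) - ε τ₀ • t g • ρ g v₀ + ε τ₀ • ε g • v₀) := by abel
        rw [this, hB, h2', sub_zero]
      have hcn : (ε τ₀ : R) * t g - t (τ₀ * g) ∉ 𝔫 := by
        intro hmem
        rw [hV𝔫 _ hw _ hmem] at hE
        have hnd : ¬ (p : ℤ) ∣ (ε τ₀ - 1) * ε g := by
          intro hd
          rcases (Nat.prime_iff_prime_int.1 hp).dvd_or_dvd hd with h | h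
          · exact hτ₀1 h
          · exact not_dvd_eps ε ω hω g h
        exact hb (eq_zero_of_zsmul_eq_zero hp hnd (j := 1) (by rw [pow_one]; exact hVp _ hv₀V)
          hE.symm)
      obtain ⟨d, i, hi, hd⟩ := h𝔫.exists_inv hcn
      refine ⟨d * (((ε τ₀ - 1) * ε g : ℤ) : R), ?_⟩
      calc ρ g v₀ = (1 : R) • ρ g v₀ := (one_smul _ _).symm
        _ = (d * ((ε τ₀ : R) * t g - t (τ₀ * g)) + i) • ρ g v₀ := by rw [hd]
        _ = d • (((ε τ₀ - 1) * ε g) • v₀) := by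
            rw [add_smul, mul_smul, hE, hV𝔫 _ hw i hi, add_zero]
        _ = (d * (((ε τ₀ - 1) * ε g : ℤ) : R)) • v₀ := by
            rw [mul_smul d, Int.cast_smul_eq_zsmul]
    exact hNC (exists_character ρ t ε 𝔫 hrel hb (hV𝔫 _ hv₀V) heig)
  -- Step 2: the elements of `I` act through `ε` on `𝒳 ∩ M`
  let V₂ : AddSubgroup X :=
    { carrier := {v | v ∈ 𝒳 ∧ p • v = 0 ∧ v ∈ prim 𝔫 X}
      add_mem' := fun {a b} ha hb =>
        ⟨𝒳.add_mem ha.1 hb.1, by rw [nsmul_add, ha.2.1, hb.2.1, add_zero],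
          Submodule.add_mem _ ha.2.2 hb.2.2⟩
      zero_mem' := ⟨𝒳.zero_mem, nsmul_zero p, Submodule.zero_mem _⟩
      neg_mem' := fun {a} ha =>
        ⟨𝒳.neg_mem ha.1, by rw [smul_neg, ha.2.1, neg_zero],
          Submodule.neg_mem _ ha.2.2⟩ }
  have hrelM : ∀ τ ∈ I, ∀ c ∈ prim 𝔫 X, ρ τ (ρ τ c - c) = ε τ • (ρ τ c - c) := by
    intro τ hτ c hcM
    have h3 := key_rel_apply ρ t ε hrel τ c
    rw [hkill τ hτ _ (map_mem_prim (ρ τ) hcM)] at h3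
    exact sub_eq_zero.1 h3
  have hact₂ := hS0 V₂ (fun v hv => hv.1) (fun v hv => hv.2.1)
    (fun τ hτ v hv => ⟨hstab τ hτ v hv.1, by rw [← map_nsmul, hv.2.1, map_zero],
      map_mem_prim (ρ τ) hv.2.2⟩)
    (fun τ hτ v hv => hrelM τ hτ v hv.2.2)
  have hfixzero : ∀ σ ∈ I, ¬ (p : ℤ) ∣ ε σ - 1 → ∀ (j : ℕ) (y : X), y ∈ 𝒳 → y ∈ prim 𝔫 X →
      ρ σ y = y → p ^ j • y = 0 → y = 0 := by
    intro σ hσ hσ1 j
    induction j with
    | zero => intro y _ _ _ h; rwa [pow_zero, one_smul] at h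
    | succ j ih =>
      intro y hy𝒳 hyM hfix hpj
      apply ih y hy𝒳 hyM hfix
      have hz : p ^ j • y ∈ V₂ :=
        ⟨𝒳.nsmul_mem hy𝒳 _, by rw [← mul_nsmul', ← pow_succ']; exact hpj,
          Submodule.smul_of_tower_mem _ _ hyM⟩
      have h1 : ρ σ (p ^ j • y) = ε σ • (p ^ j • y) := hact₂ σ hσ _ hz
      rw [map_nsmul, hfix] at h1
      have h2 : (ε σ - 1) • (p ^ j • y) = 0 := by rw [sub_smul, one_smul, ← h1, sub_self]
      exact eq_zero_of_zsmul_eq_zero hp hσ1 (j := 1) (by rw [pow_one]; exact hz.2.1) h2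
  have hact2 : ∀ σ ∈ I, ¬ (p : ℤ) ∣ ε σ - 1 → ∀ c ∈ 𝒳, c ∈ prim 𝔫 X → ρ σ c = ε σ • c := by
    intro σ hσ hσ1 c hc𝒳 hcM
    have hy𝒳 : ρ σ c - ε σ • c ∈ 𝒳 := 𝒳.sub_mem (hstab σ hσ c hc𝒳) (𝒳.zsmul_mem hc𝒳 _)
    have hyM : ρ σ c - ε σ • c ∈ prim 𝔫 X :=
      Submodule.sub_mem _ (map_mem_prim (ρ σ) hcM) (Submodule.smul_of_tower_mem _ _ hcM)
    have hfix : ρ σ (ρ σ c - ε σ • c) = ρ σ c - ε σ • c := by
      have h3 := hrelM σ hσ c hcM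
      rw [map_sub, smul_sub] at h3
      rw [map_sub, map_zsmul, ← sub_eq_zero]
      rw [← sub_eq_zero] at h3
      rw [← h3]
      abel
    obtain ⟨j, hj⟩ := exists_pow_nsmul_eq_zero hp𝔫 hyM
    exact sub_eq_zero.1 (hfixzero σ hσ hσ1 j _ hy𝒳 hyM hfix hj)
  have hact3 : ∀ σ ∈ I, ∀ c ∈ 𝒳, c ∈ prim 𝔫 X → ρ σ c = ε σ • c := by
    intro σ hσ c hc𝒳 hcM
    by_cases hσ1 : (p : ℤ) ∣ ε σ - 1
    · have hτσI : τ₀ * σ ∈ I := I.mul_mem hτ₀ hσ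
      have hτσ1 : ¬ (p : ℤ) ∣ ε (τ₀ * σ) - 1 := by
        rw [← omega_eq_one_iff ε ω hω, map_mul, (omega_eq_one_iff ε ω hω σ).2 hσ1, mul_one]
        exact hτ₀ne
      have h1 : ρ (τ₀ * σ) c = ε (τ₀ * σ) • c := hact2 _ hτσI hτσ1 c hc𝒳 hcM
      have h2 : ρ τ₀ (ρ σ c) = ε τ₀ • ρ σ c :=
        hact2 τ₀ hτ₀ hτ₀1 _ (hstab σ hσ c hc𝒳) (map_mem_prim (ρ σ) hcM)
      rw [map_mul, Module.End.mul_apply, h2, hεmul τ₀ σ c] at h1
      have hdM : ρ σ c - ε σ • c ∈ prim 𝔫 X :=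
        Submodule.sub_mem _ (map_mem_prim (ρ σ) hcM) (Submodule.smul_of_tower_mem _ _ hcM)
      obtain ⟨j, hj⟩ := exists_pow_nsmul_eq_zero hp𝔫 hdM
      have h3 : ε τ₀ • (ρ σ c - ε σ • c) = 0 := by rw [smul_sub, h1, sub_self]
      exact sub_eq_zero.1 (eq_zero_of_zsmul_eq_zero hp (not_dvd_eps ε ω hω τ₀) hj h3)
    · exact hact2 σ hσ hσ1 c hc𝒳 hcM
  -- Step 3
  have hc𝒳 : ρ τ x - x ∈ 𝒳 := hGA τ hτ x
  have hcM : ρ τ x - x ∈ prim 𝔫 X := Submodule.sub_mem _ (map_mem_prim (ρ τ) hx) hx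
  rw [hact3 σ hσ _ hc𝒳 hcM, sub_self]

end Main

end Fermat.Agent.S33.Lat.Finite
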