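/-
S33, brick (LAT), level-free core (helper244).  Imports Mathlib + S33/Lat/Finite (for `step0`).

`lat_core`: a lattice `Λ` over a commutative noetherian ring `R` with an `R`-linear action `ρ` of a
group `G` satisfying the quadratic relations `g² - t(g) g + e(g) = 0`, a maximal ideal `𝔫 ∋ p`, a
subgroup `I ≤ G` (inertia) and subgroups `X n ≤ Λ` (preimages of the classes which are trivial at
the two Gauss valuations).  From (GA), (SAT), (GeoI), (GeoII0), (TR), (NC):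
for all `σ, τ ∈ I` there is `U ∉ 𝔫` with `U (ρ σ - e σ) (ρ τ - 1) = 0` on `Λ`.

Proof.  For each `n`, Nakayama on the finite module `Λ / p ^ n` gives `u ∉ 𝔫` and `k` with
`u 𝔫 ^ k Λ ⊆ p ^ n Λ` (`Hyp.exists_u`); Steps 1-3 are proved for every `x` with
`𝔫 ^ k x ⊆ p ^ n Λ` (`InT`), Step 0 is the landed `Finite.step0` read on `Λ / p Λ`;
Step 4 is Artin-Rees on the cyclic module generated by `(ρ σ - e σ) (ρ τ - 1) x`, and a product
over a finite generating set of `Λ`.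
-/
import Mathlib
import Fermat.Agent.S33.Lat.Finite

set_option autoImplicit false

namespace Fermat.Agent.S33.Lat.Core

section Lattice

variable {p : ℕ} {R Λ G : Type*} [CommRing R] [AddCommGroup Λ] [Module R Λ] [Group G]

/-- The submodule `p ^ n Λ`. -/
def pL (p : ℕ) (R : Type*) (Λ : Type*) [CommRing R] [AddCommGroup Λ] [Module R Λ] (n : ℕ) :
    Submodule R Λ :=
  LinearMap.range (((p : R) ^ n) • (LinearMap.id : Λ →ₗ[R] Λ))

theorem mem_pL {n : ℕ} {x : Λ} : x ∈ pL p R Λ n ↔ ∃ y : Λ, x = (p : R) ^ n • y := by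
  unfold pL
  rw [LinearMap.mem_range]
  constructor
  · rintro ⟨y, rfl⟩
    exact ⟨y, rfl⟩
  · rintro ⟨y, rfl⟩
    exact ⟨y, rfl⟩

theorem mem_pL_one {x : Λ} : x ∈ pL p R Λ 1 ↔ ∃ y : Λ, x = (p : R) • y := by
  rw [mem_pL, pow_one]

theorem pow_smul_mem_pL (n : ℕ) (x : Λ) : (p : R) ^ n • x ∈ pL p R Λ n := mem_pL.mpr ⟨x, rfl⟩

theorem map_mem_pL (f : Λ →ₗ[R] Λ) {n : ℕ} {x : Λ} (hx : x ∈ pL p R Λ n) : f x ∈ pL p R Λ n := by
  obtain ⟨y, rfl⟩ := mem_pL.mp hx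
  rw [map_smul]
  exact pow_smul_mem_pL n _

theorem pL_zero (x : Λ) : x ∈ pL p R Λ 0 := mem_pL.mpr ⟨x, by rw [pow_zero, one_smul]⟩

theorem pow_smul_eq_zero (htf : ∀ x : Λ, (p : R) • x = 0 → x = 0) (m : ℕ) {x : Λ}
    (h : (p : R) ^ m • x = 0) : x = 0 := by
  induction m generalizing x with
  | zero => rwa [pow_zero, one_smul] at h
  | succ m ih =>
    rw [pow_succ, mul_smul] at h
    exact htf x (ih h)

theorem div_pL (htf : ∀ x : Λ, (p : R) • x = 0 → x = 0) (m j : ℕ) {x : Λ}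
    (h : (p : R) ^ m • x ∈ pL p R Λ (m + j)) : x ∈ pL p R Λ j := by
  obtain ⟨z, hz⟩ := mem_pL.mp h
  refine mem_pL.mpr ⟨z, ?_⟩
  have h1 : (p : R) ^ m • (x - (p : R) ^ j • z) = 0 := by
    rw [smul_sub, hz, smul_smul, ← pow_add]
    exact sub_self _
  exact sub_eq_zero.mp (pow_smul_eq_zero htf m h1)

/-- `x` is killed by `𝔫 ^ k` modulo `p ^ n`. -/
def InT (p : ℕ) (𝔫 : Ideal R) (n k : ℕ) (x : Λ) : Prop := ∀ r ∈ 𝔫 ^ k, r • x ∈ pL p R Λ n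

theorem InT.map {𝔫 : Ideal R} {n k : ℕ} {x : Λ} (h : InT p 𝔫 n k x) (f : Λ →ₗ[R] Λ) :
    InT p 𝔫 n k (f x) := fun r hr => by
  rw [← map_smul]
  exact map_mem_pL f (h r hr)

theorem InT.smul {𝔫 : Ideal R} {n k : ℕ} {x : Λ} (h : InT p 𝔫 n k x) (s : R) :
    InT p 𝔫 n k (s • x) := fun r hr => by
  rw [smul_comm]
  exact (pL p R Λ n).smul_mem s (h r hr)

theorem InT.add {𝔫 : Ideal R} {n k : ℕ} {x y : Λ} (hx : InT p 𝔫 n k x) (hy : InT p 𝔫 n k y) :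
    InT p 𝔫 n k (x + y) := fun r hr => by
  rw [smul_add]
  exact (pL p R Λ n).add_mem (hx r hr) (hy r hr)

theorem InT.neg {𝔫 : Ideal R} {n k : ℕ} {x : Λ} (hx : InT p 𝔫 n k x) :
    InT p 𝔫 n k (-x) := fun r hr => by
  rw [smul_neg]
  exact (pL p R Λ n).neg_mem (hx r hr)

theorem InT.sub {𝔫 : Ideal R} {n k : ℕ} {x y : Λ} (hx : InT p 𝔫 n k x) (hy : InT p 𝔫 n k y) :
    InT p 𝔫 n k (x - y) := fun r hr => by
  rw [smul_sub]
  exact (pL p R Λ n).sub_mem (hx r hr) (hy r hr)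

theorem InT.of_mem {𝔫 : Ideal R} {n k : ℕ} {x : Λ} (hx : x ∈ pL p R Λ n) : InT p 𝔫 n k x :=
  fun r _ => (pL p R Λ n).smul_mem r hx

/-- A non-zero element killed by a power of `𝔫` has a non-zero multiple killed by `𝔫`
(everything modulo `p ^ n`). -/
theorem exists_socle {𝔫 : Ideal R} (n : ℕ) : ∀ (k : ℕ) (y : Λ),
    (∀ r ∈ 𝔫 ^ k, r • y ∈ pL p R Λ n) → y ∉ pL p R Λ n →
    ∃ r₀ : R, r₀ • y ∉ pL p R Λ n ∧ ∀ r ∈ 𝔫, r • (r₀ • y) ∈ pL p R Λ n := by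
  intro k
  induction k with
  | zero =>
    intro y h hy
    have h1 := h 1 (by rw [pow_zero, Ideal.one_eq_top]; exact Submodule.mem_top)
    rw [one_smul] at h1
    exact absurd h1 hy
  | succ k ih =>
    intro y h hy
    by_cases h' : ∀ r ∈ 𝔫 ^ k, r • y ∈ pL p R Λ n
    · exact ih y h' hy
    · obtain ⟨r₁, h'⟩ := not_forall.mp h'
      obtain ⟨hr₁, hr₁y⟩ := Classical.not_imp.mp h'
      refine ⟨r₁, hr₁y, fun r hr => ?_⟩
      rw [smul_smul]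
      exact h _ (by rw [pow_succ']; exact Ideal.mul_mem_mul hr hr₁)

theorem finite_quot_pL [Module.Finite R Λ] (hRp : Finite (R ⧸ Ideal.span {(p : R)})) (n : ℕ) :
    Finite (Λ ⧸ pL p R Λ n) := by
  have h1 : pL p R Λ n = (Ideal.span {(p : R)}) ^ n • (⊤ : Submodule R Λ) := by
    rw [Ideal.span_singleton_pow, Submodule.ideal_span_singleton_smul]
    ext x
    rw [mem_pL, Submodule.mem_smul_pointwise_iff_exists]
    constructor
    · rintro ⟨y, rfl⟩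
      exact ⟨y, Submodule.mem_top, rfl⟩
    · rintro ⟨y, _, rfl⟩
      exact ⟨y, rfl⟩
  rw [h1]
  have : Finite (R ⧸ Ideal.span {(p : R)} ^ n) :=
    Ideal.finite_quotient_pow (Submodule.fg_span_singleton _) n
  exact Submodule.finite_quotient_smul _ Module.Finite.fg_top

/-- The hypotheses of the lattice core, bundled. -/
structure Hyp (p : ℕ) (ρ : G →* Module.End R Λ) (e : G →* Rˣ) (t : G → R)
    (ω : G →* (ZMod p)ˣ) (𝔫 : Ideal R) (I : Subgroup G) (X : ℕ → AddSubgroup Λ) : Prop where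
  fin : ∀ n, Finite (Λ ⧸ pL p R Λ n)
  tf : ∀ x : Λ, (p : R) • x = 0 → x = 0
  quad : ∀ g x, ρ g (ρ g x) - t g • ρ g x + (e g : R) • x = 0
  om : ∀ g, (e g : R) - (((ω g : ZMod p).val : ℕ) : R) ∈ Ideal.span {(p : R)}
  int : ∀ g n, ∃ a : ℤ, (e g : R) - (a : R) ∈ Ideal.span {(p : R) ^ n}
  max : 𝔫.IsMaximal
  pn : (p : R) ∈ 𝔫
  exI : ∃ τ₀ ∈ I, ω τ₀ ≠ 1
  xp : ∀ n x, (p : R) ^ n • x ∈ X n
  ga : ∀ n, ∀ τ ∈ I, ∀ x, ρ τ x - x ∈ X n
  sat : ∀ n x, (p : R) ^ n • x ∈ X (n + 1) → x ∈ X 1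
  geoI : ∀ x ∈ X 1, (∀ τ ∈ I, ∃ y, ρ τ x - x = (p : R) • y) → ∃ y, x = (p : R) • y
  geoII0 : ∀ x ∈ X 1,
    (∀ σ ∈ I, ∀ τ ∈ I,
        ∃ y, ρ τ (ρ σ x - x) - (((ω τ : ZMod p).val : ℕ) : R) • (ρ σ x - x) = (p : R) • y) →
      ∀ σ ∈ I, ω σ = 1 → ∃ y, ρ σ x - x = (p : R) • y
  tr : ∀ σ ∈ I, t σ - 1 - (e σ : R) ∈ 𝔫
  nc : ¬ ∃ lam : G →* (R ⧸ 𝔫)ˣ, ∀ g,
    ((lam g : (R ⧸ 𝔫)ˣ) : R ⧸ 𝔫) ^ 2 - Ideal.Quotient.mk 𝔫 (t g) * (lam g : R ⧸ 𝔫)
      + Ideal.Quotient.mk 𝔫 (e g : R) = 0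

variable {ρ : G →* Module.End R Λ} {e : G →* Rˣ} {t : G → R} {ω : G →* (ZMod p)ˣ}
  {𝔫 : Ideal R} {I : Subgroup G} {X : ℕ → AddSubgroup Λ}

theorem rho_inv_apply (ρ : G →* Module.End R Λ) (g : G) (x : Λ) : ρ g (ρ g⁻¹ x) = x := by
  rw [← Module.End.mul_apply, ← map_mul, mul_inv_cancel, map_one, Module.End.one_apply]

theorem Hyp.a_identity (H : Hyp p ρ e t ω 𝔫 I X) (g : G) (x : Λ) :
    ρ g (ρ g x - (e g : R) • x) - (ρ g x - (e g : R) • x) = (t g - 1 - (e g : R)) • ρ g x := by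
  have h := H.quad g x
  have h' : ρ g (ρ g x) = t g • ρ g x - (e g : R) • x := by
    rw [← sub_eq_zero, ← h]
    abel
  rw [map_sub, map_smul, h', sub_smul, sub_smul, one_smul]
  abel

theorem Hyp.a_smul_mem_X (H : Hyp p ρ e t ω 𝔫 I X) {τ : G} (hτ : τ ∈ I) (n : ℕ) (x : Λ) :
    (t τ - 1 - (e τ : R)) • x ∈ X n := by
  have h := H.a_identity τ (ρ τ⁻¹ x)
  rw [rho_inv_apply] at h
  rw [← h]
  exact H.ga n τ hτ _

theorem Hyp.e_sub_one_smul_mem_X (H : Hyp p ρ e t ω 𝔫 I X) (g : G) (n : ℕ) {x : Λ}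
    (hx : x ∈ X n) : ((e g : R) - 1) • x ∈ X n := by
  obtain ⟨a, ha⟩ := H.int g n
  obtain ⟨c, hc⟩ := Ideal.mem_span_singleton'.mp ha
  have h0 : (e g : R) - 1 = ((a - 1 : ℤ) : R) + (p : R) ^ n * c := by
    push_cast
    linear_combination -hc
  rw [h0, add_smul, mul_smul, Int.cast_smul_eq_zsmul]
  exact (X n).add_mem ((X n).zsmul_mem hx _) (H.xp n _)

variable [hp : Fact p.Prime]

theorem Hyp.exists_inv_mod (H : Hyp p ρ e t ω 𝔫 I X) {g : G} (hg : ω g ≠ 1) :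
    ∃ (b : ℤ) (c : R), (b : R) * ((e g : R) - 1) = 1 + (p : R) * c := by
  have hw1 : (((ω g : ZMod p).val : ℕ) : ZMod p) - 1 ≠ 0 := by
    rw [ZMod.natCast_zmod_val, sub_ne_zero]
    intro h
    exact hg (Units.ext h)
  obtain ⟨bn, hbn⟩ : ∃ bn : ℕ, (bn : ZMod p) = ((((ω g : ZMod p).val : ℕ) : ZMod p) - 1)⁻¹ :=
    ⟨_, ZMod.natCast_zmod_val _⟩
  have h1 : ((((bn : ℤ) * ((((ω g : ZMod p).val : ℕ) : ℤ) - 1) - 1 : ℤ)) : ZMod p) = 0 := by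
    push_cast
    rw [hbn, inv_mul_cancel₀ hw1, sub_self]
  obtain ⟨d, hd⟩ := (ZMod.intCast_zmod_eq_zero_iff_dvd _ p).mp h1
  obtain ⟨c', hc'⟩ := Ideal.mem_span_singleton'.mp (H.om g)
  refine ⟨(bn : ℤ), (d : R) + (bn : R) * c', ?_⟩
  have hd' := congrArg (Int.cast : ℤ → R) hd
  push_cast at hd'
  push_cast
  linear_combination hd' - (bn : R) * hc'

theorem Hyp.cancel (H : Hyp p ρ e t ω 𝔫 I X) {g : G} (hg : ω g ≠ 1) {y : Λ}
    (hy : ((e g : R) - 1) • y ∈ pL p R Λ 1) : y ∈ pL p R Λ 1 := by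
  obtain ⟨b, c, hbc⟩ := H.exists_inv_mod hg
  have h1 : y = (b : R) • (((e g : R) - 1) • y) - (p : R) • (c • y) := by
    rw [smul_smul, hbc, smul_smul, add_smul, one_smul, add_sub_cancel_right]
  rw [h1]
  exact (pL p R Λ 1).sub_mem ((pL p R Λ 1).smul_mem _ hy) (mem_pL_one.mpr ⟨_, rfl⟩)

/-- **Step 0.**  On a subgroup `Ξ` of `Λ` contained in `X 1`, stable under `I`, on which the
relations `(σ - 1) (σ - e σ) = 0`, `σ ∈ I`, hold exactly modulo `p`, inertia acts through `e`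
modulo `p`.  (The landed `Finite.step0` on `Λ / p Λ`.) -/
theorem Hyp.step0 (H : Hyp p ρ e t ω 𝔫 I X) (Ξ : AddSubgroup Λ)
    (hΞX : ∀ x ∈ Ξ, x ∈ X 1) (hΞI : ∀ σ ∈ I, ∀ x ∈ Ξ, ρ σ x ∈ Ξ)
    (hrel : ∀ σ ∈ I, ∀ x ∈ Ξ, (t σ - 1 - (e σ : R)) • x ∈ pL p R Λ 1) :
    ∀ σ ∈ I, ∀ x ∈ Ξ, ρ σ x - (e σ : R) • x ∈ pL p R Λ 1 := by
  classical
  let mk : Λ →ₗ[R] (Λ ⧸ pL p R Λ 1) := (pL p R Λ 1).mkQ
  have hmk0 : ∀ x : Λ, mk x = 0 ↔ x ∈ pL p R Λ 1 := fun x => Submodule.Quotient.mk_eq_zero _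
  have hmk_eq : ∀ x y : Λ, mk x = mk y ↔ x - y ∈ pL p R Λ 1 := by
    intro x y
    rw [← sub_eq_zero, ← map_sub, hmk0]
  let rb : Representation R G (Λ ⧸ pL p R Λ 1) :=
    { toFun := fun g => (pL p R Λ 1).mapQ (pL p R Λ 1) (ρ g) (fun x hx => map_mem_pL (ρ g) hx)
      map_one' := by
        apply LinearMap.ext
        intro v
        obtain ⟨x, rfl⟩ := Submodule.mkQ_surjective _ v
        show mk (ρ 1 x) = mk x
        rw [map_one, Module.End.one_apply]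
      map_mul' := by
        intro a b
        apply LinearMap.ext
        intro v
        obtain ⟨x, rfl⟩ := Submodule.mkQ_surjective _ v
        show mk (ρ (a * b) x) = mk (ρ a (ρ b x))
        rw [map_mul, Module.End.mul_apply] }
  have hrb : ∀ g x, rb g (mk x) = mk (ρ g x) := fun g x => rfl
  have hpV : ∀ v : Λ ⧸ pL p R Λ 1, p • v = 0 := by
    intro v
    obtain ⟨x, rfl⟩ := Submodule.mkQ_surjective _ v
    rw [← Nat.cast_smul_eq_nsmul R, ← map_smul]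
    exact (hmk0 _).mpr (mem_pL_one.mpr ⟨x, rfl⟩)
  -- the integer lift of `ω`
  let ε : G → ℤ := fun g => (((ω g : ZMod p).val : ℕ) : ℤ)
  have hωε : ∀ g, ((ω g : (ZMod p)ˣ) : ZMod p) = ((ε g : ℤ) : ZMod p) := by
    intro g
    show _ = (((((ω g : ZMod p).val : ℕ) : ℤ) : ℤ) : ZMod p)
    rw [Int.cast_natCast, ZMod.natCast_zmod_val]
  have hε_smul : ∀ g (x : Λ), ε g • mk x = mk ((((ω g : ZMod p).val : ℕ) : R) • x) := by
    intro g x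
    show ((((ω g : ZMod p).val : ℕ) : ℤ)) • mk x = _
    rw [natCast_zsmul, map_smul, Nat.cast_smul_eq_nsmul]
  -- `e g` and the lift of `ω g` agree modulo `p`
  have he_sub : ∀ g (x : Λ), (e g : R) • x - (((ω g : ZMod p).val : ℕ) : R) • x ∈ pL p R Λ 1 := by
    intro g x
    obtain ⟨c', hc'⟩ := Ideal.mem_span_singleton'.mp (H.om g)
    rw [← sub_smul, ← hc', mul_comm, mul_smul]
    exact mem_pL_one.mpr ⟨_, rfl⟩
  obtain ⟨τ₀, hτ₀, hτ₀ne, hgen⟩ := Finite.exists_gen ω I H.exI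
  have hGeoI' : ∀ v ∈ (X 1).map mk.toAddMonoidHom, p • v = 0 →
      (∀ τ ∈ I, rb τ v = v) → v = 0 := by
    rintro _ ⟨x, hx, rfl⟩ - hfix
    show mk x = 0
    rw [hmk0]
    exact mem_pL_one.mpr (H.geoI x hx (fun τ hτ => by
      have h2 : mk (ρ τ x) = mk x := hfix τ hτ
      rw [hmk_eq] at h2
      exact mem_pL_one.mp h2))
  have hGeoII0' : ∀ v ∈ (X 1).map mk.toAddMonoidHom, p • v = 0 →
      (∀ s ∈ I, ∀ τ ∈ I, rb τ (rb s v - v) = ε τ • (rb s v - v)) →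
      ∀ s ∈ I, ω s = 1 → rb s v = v := by
    rintro _ ⟨x, hx, rfl⟩ - hprem
    have h1 := H.geoII0 x hx (fun σ hσ τ hτ => by
      have h2 : rb τ (mk (ρ σ x - x)) = ε τ • mk (ρ σ x - x) := by
        have h3 := hprem σ hσ τ hτ
        rw [map_sub]
        exact h3
      rw [hrb, hε_smul, hmk_eq] at h2
      exact mem_pL_one.mp h2)
    intro s hs hωs
    obtain ⟨y, hy⟩ := h1 s hs hωs
    show mk (ρ s x) = mk x
    rw [hmk_eq, hy]
    exact mem_pL_one.mpr ⟨y, rfl⟩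
  have hmain := Finite.step0 rb ε ω hωε I hτ₀ hτ₀ne hgen ((X 1).map mk.toAddMonoidHom)
    hGeoI' hGeoII0' (Ξ.map mk.toAddMonoidHom) (AddSubgroup.map_mono (fun x hx => hΞX x hx))
    (fun v _ => hpV v)
    (by
      rintro τ hτ _ ⟨x, hx, rfl⟩
      exact ⟨ρ τ x, hΞI τ hτ x hx, rfl⟩)
    (by
      rintro τ hτ _ ⟨x, hx, rfl⟩
      show rb τ (rb τ (mk x) - mk x) = ε τ • (rb τ (mk x) - mk x)
      rw [hrb, ← map_sub, hrb, hε_smul, hmk_eq]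
      have h1 : ρ τ (ρ τ x - x) - (((ω τ : ZMod p).val : ℕ) : R) • (ρ τ x - x)
          = (t τ - 1 - (e τ : R)) • ρ τ x
            + ((e τ : R) • (ρ τ x - x) - (((ω τ : ZMod p).val : ℕ) : R) • (ρ τ x - x)) := by
        rw [← H.a_identity τ x]
        simp only [map_sub, map_smul, smul_sub]
        abel
      rw [h1]
      exact (pL p R Λ 1).add_mem (hrel τ hτ _ (hΞI τ hτ x hx)) (he_sub τ _))
  intro σ hσ x hx
  have h2 : mk (ρ σ x) = ε σ • mk x := hmain σ hσ (mk x) ⟨x, hx, rfl⟩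
  rw [hε_smul, hmk_eq] at h2
  have h3 := (pL p R Λ 1).sub_mem h2 (he_sub σ x)
  have h4 : ρ σ x - (((ω σ : ZMod p).val : ℕ) : R) • x
      - ((e σ : R) • x - (((ω σ : ZMod p).val : ℕ) : R) • x) = ρ σ x - (e σ : R) • x := by
    abel
  rwa [h4] at h3

omit hp in
/-- Nakayama on `Λ / p ^ n`: the `𝔫`-primary part. -/
theorem Hyp.exists_u (H : Hyp p ρ e t ω 𝔫 I X) (n : ℕ) :
    ∃ u : R, u ∉ 𝔫 ∧ ∃ k : ℕ, ∀ x : Λ, InT p 𝔫 n k (u • x) := by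
  have := H.fin n
  let f : ℕ →o (Submodule R (Λ ⧸ pL p R Λ n))ᵒᵈ :=
    ⟨fun k => OrderDual.toDual (𝔫 ^ k • (⊤ : Submodule R (Λ ⧸ pL p R Λ n))), by
      intro a b hab
      exact Submodule.smul_mono_left (Ideal.pow_le_pow_right hab)⟩
  obtain ⟨k, hk⟩ := IsArtinian.monotone_stabilizes f
  have hk1 : 𝔫 ^ k • (⊤ : Submodule R (Λ ⧸ pL p R Λ n)) = 𝔫 ^ (k + 1) • ⊤ :=
    congrArg OrderDual.ofDual (hk (k + 1) (Nat.le_succ k))
  have hle : 𝔫 ^ k • (⊤ : Submodule R (Λ ⧸ pL p R Λ n)) ≤ 𝔫 • (𝔫 ^ k • ⊤) := by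
    rw [← Submodule.mul_smul, ← pow_succ', ← hk1]
  have hfg : (𝔫 ^ k • (⊤ : Submodule R (Λ ⧸ pL p R Λ n))).FG := IsNoetherian.noetherian _
  obtain ⟨u, hu1, hu2⟩ :=
    Submodule.exists_sub_one_mem_and_smul_eq_zero_of_fg_of_le_smul 𝔫 _ hfg hle
  refine ⟨u, ?_, k, ?_⟩
  · intro hu
    have h1 := 𝔫.sub_mem hu hu1
    rw [sub_sub_cancel] at h1
    exact H.max.ne_top ((Ideal.eq_top_iff_one _).mpr h1)
  · intro x r hr
    have h1 : r • (Submodule.Quotient.mk x : Λ ⧸ pL p R Λ n) ∈ 𝔫 ^ k • (⊤ : Submodule R _) :=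
      Submodule.smul_mem_smul hr Submodule.mem_top
    have h2 := hu2 _ h1
    rw [← Submodule.Quotient.mk_smul, ← Submodule.Quotient.mk_smul,
      Submodule.Quotient.mk_eq_zero] at h2
    rw [smul_comm]
    exact h2

/-- **Step 1.**  The elements `a_τ = t τ - 1 - e τ`, `τ ∈ I`, kill the `𝔫`-primary part. -/
theorem Hyp.step1 (H : Hyp p ρ e t ω 𝔫 I X) (n k : ℕ) {τ : G} (hτ : τ ∈ I) {x : Λ}
    (hx : InT p 𝔫 n k x) : (t τ - 1 - (e τ : R)) • x ∈ pL p R Λ n := by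
  classical
  by_contra hcon
  obtain ⟨m, rfl⟩ : ∃ m, n = m + 1 := by
    rcases n with _ | m
    · exact absurd (pL_zero _) hcon
    · exact ⟨m, rfl⟩
  obtain ⟨r₀, hr₀, hr₀𝔫⟩ := exists_socle (𝔫 := 𝔫) (m + 1) k ((t τ - 1 - (e τ : R)) • x)
    (fun r hr => by
      rw [smul_comm]
      exact (pL p R Λ (m + 1)).smul_mem _ (hx r hr)) hcon
  have hv_eq : r₀ • ((t τ - 1 - (e τ : R)) • x) = (t τ - 1 - (e τ : R)) • (r₀ • x) :=
    smul_comm _ _ _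
  obtain ⟨z, hz⟩ : ∃ z : Λ, r₀ • ((t τ - 1 - (e τ : R)) • x) = (p : R) ^ m • z := by
    obtain ⟨z, hz⟩ := mem_pL.mp (hr₀𝔫 (p : R) H.pn)
    refine ⟨z, ?_⟩
    have h1 : (p : R) • (r₀ • ((t τ - 1 - (e τ : R)) • x) - (p : R) ^ m • z) = 0 := by
      rw [smul_sub, hz, smul_smul, ← pow_succ']
      exact sub_self _
    exact sub_eq_zero.mp (H.tf _ h1)
  have hz1 : z ∉ pL p R Λ 1 := by
    intro hz1
    obtain ⟨z', rfl⟩ := mem_pL_one.mp hz1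
    apply hr₀
    rw [hz, smul_smul, ← pow_succ]
    exact pow_smul_mem_pL _ _
  let Ξ : AddSubgroup Λ :=
    { carrier := {y | (∀ r ∈ 𝔫, r • ((p : R) ^ m • y) ∈ pL p R Λ (m + 1)) ∧
        ∀ (r : R) (g : G), r • ρ g ((p : R) ^ m • y) ∈ X (m + 1)}
      zero_mem' := ⟨fun r _ => by
          rw [smul_zero, smul_zero]
          exact zero_mem _,
        fun r g => by
          rw [smul_zero, map_zero, smul_zero]
          exact zero_mem _⟩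
      add_mem' := fun {y₁ y₂} h₁ h₂ => ⟨fun r hr => by
          rw [smul_add, smul_add]
          exact (pL p R Λ (m + 1)).add_mem (h₁.1 r hr) (h₂.1 r hr),
        fun r g => by
          rw [smul_add, map_add, smul_add]
          exact (X (m + 1)).add_mem (h₁.2 r g) (h₂.2 r g)⟩
      neg_mem' := fun {y} h => ⟨fun r hr => by
          rw [smul_neg, smul_neg]
          exact (pL p R Λ (m + 1)).neg_mem (h.1 r hr),
        fun r g => by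
          rw [smul_neg, map_neg, smul_neg]
          exact (X (m + 1)).neg_mem (h.2 r g)⟩ }
  have hΞ : ∀ y, y ∈ Ξ ↔ (∀ r ∈ 𝔫, r • ((p : R) ^ m • y) ∈ pL p R Λ (m + 1)) ∧
      ∀ (r : R) (g : G), r • ρ g ((p : R) ^ m • y) ∈ X (m + 1) := fun y => Iff.rfl
  have hΞX : ∀ y ∈ Ξ, y ∈ X 1 := by
    intro y hy
    have h1 := ((hΞ y).mp hy).2 1 1
    rw [one_smul, map_one, Module.End.one_apply] at h1
    exact H.sat m y h1
  have hΞG : ∀ g : G, ∀ y ∈ Ξ, ρ g y ∈ Ξ := by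
    intro g y hy
    obtain ⟨h1, h2⟩ := (hΞ y).mp hy
    refine (hΞ _).mpr ⟨fun r hr => ?_, fun r g' => ?_⟩
    · rw [← map_smul, ← map_smul]
      exact map_mem_pL (ρ g) (h1 r hr)
    · rw [← map_smul (ρ g) ((p : R) ^ m) y, ← Module.End.mul_apply, ← map_mul]
      exact h2 r (g' * g)
  have hΞ𝔫 : ∀ r ∈ 𝔫 ^ 1, ∀ y ∈ Ξ, r • y ∈ pL p R Λ 1 := by
    intro r hr y hy
    rw [pow_one] at hr
    have h1 := ((hΞ y).mp hy).1 r hr
    rw [smul_comm] at h1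
    exact div_pL H.tf m 1 h1
  have hzΞ : z ∈ Ξ := by
    refine (hΞ z).mpr ⟨fun r hr => ?_, fun r g => ?_⟩
    · rw [← hz]
      exact hr₀𝔫 r hr
    · rw [← hz, hv_eq, map_smul, smul_comm]
      exact H.a_smul_mem_X hτ (m + 1) _
  have h0 := H.step0 Ξ hΞX (fun σ _ => hΞG σ)
    (fun σ hσ y hy => hΞ𝔫 _ (by rw [pow_one]; exact H.tr σ hσ) y hy)
  obtain ⟨τ₀, hτ₀, hωτ₀⟩ := H.exI
  have hann : ∀ r : R, r • z ∈ pL p R Λ 1 → r ∈ 𝔫 := by
    intro r hr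
    by_contra hr𝔫
    obtain ⟨r', i, hi, hri⟩ := H.max.exists_inv hr𝔫
    apply hz1
    have h1 : z = r' • (r • z) + i • z := by
      rw [smul_smul, ← add_smul, hri, one_smul]
    rw [h1]
    exact (pL p R Λ 1).add_mem ((pL p R Λ 1).smul_mem _ hr) (hΞ𝔫 i (by rwa [pow_one]) z hzΞ)
  have hstar : ∀ g : G, ∀ y ∈ Ξ,
      ((e τ₀ : R) * t g - t (τ₀ * g)) • ρ g y - (((e τ₀ : R) - 1) * (e g : R)) • y
        ∈ pL p R Λ 1 := by
    intro g y hy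
    have c1 : ρ (τ₀ * g) y - (e τ₀ : R) • ρ g y ∈ pL p R Λ 1 := by
      rw [map_mul, Module.End.mul_apply]
      exact h0 τ₀ hτ₀ _ (hΞG g y hy)
    have c2 : ρ (τ₀ * g) (ρ g y) - (e τ₀ : R) • ρ g (ρ g y) ∈ pL p R Λ 1 := by
      rw [map_mul, Module.End.mul_apply]
      exact h0 τ₀ hτ₀ _ (hΞG g _ (hΞG g y hy))
    have c3 : ρ (τ₀ * g) (ρ (τ₀ * g) y) - ((e τ₀ : R) * (e τ₀ : R)) • ρ g (ρ g y)
        ∈ pL p R Λ 1 := by
      have h1 : ρ (τ₀ * g) (ρ (τ₀ * g) y) - ((e τ₀ : R) * (e τ₀ : R)) • ρ g (ρ g y) =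
          ρ (τ₀ * g) (ρ (τ₀ * g) y - (e τ₀ : R) • ρ g y)
            + (e τ₀ : R) • (ρ (τ₀ * g) (ρ g y) - (e τ₀ : R) • ρ g (ρ g y)) := by
        rw [map_sub, map_smul, smul_sub, smul_smul]
        abel
      rw [h1]
      exact (pL p R Λ 1).add_mem (map_mem_pL _ c1) ((pL p R Λ 1).smul_mem _ c2)
    have q1 := H.quad (τ₀ * g) y
    have q2 := H.quad g y
    have he : ((e (τ₀ * g) : Rˣ) : R) = (e τ₀ : R) * (e g : R) := by
      rw [map_mul, Units.val_mul]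
    have hA : ρ (τ₀ * g) (ρ (τ₀ * g) y)
        = t (τ₀ * g) • ρ (τ₀ * g) y - ((e τ₀ : R) * (e g : R)) • y := by
      rw [← sub_eq_zero, ← q1, he]
      abel
    have hC : ρ g (ρ g y) = t g • ρ g y - (e g : R) • y := by
      rw [← sub_eq_zero, ← q2]
      abel
    have key : (e τ₀ : R) • (((e τ₀ : R) * t g - t (τ₀ * g)) • ρ g y
        - (((e τ₀ : R) - 1) * (e g : R)) • y) =
        - (ρ (τ₀ * g) (ρ (τ₀ * g) y) - ((e τ₀ : R) * (e τ₀ : R)) • ρ g (ρ g y))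
          + t (τ₀ * g) • (ρ (τ₀ * g) y - (e τ₀ : R) • ρ g y) := by
      rw [hA, hC]
      module
    have h2 : (e τ₀ : R) • (((e τ₀ : R) * t g - t (τ₀ * g)) • ρ g y
        - (((e τ₀ : R) - 1) * (e g : R)) • y) ∈ pL p R Λ 1 := by
      rw [key]
      exact (pL p R Λ 1).add_mem ((pL p R Λ 1).neg_mem c3) ((pL p R Λ 1).smul_mem _ c1)
    have h3 := (pL p R Λ 1).smul_mem (((e τ₀)⁻¹ : Rˣ) : R) h2
    rwa [smul_smul, Units.inv_mul, one_smul] at h3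
  have hscal : ∀ g : G, ∃ c : R, ∀ y ∈ Ξ, ρ g y - c • y ∈ pL p R Λ 1 := by
    intro g
    have hs𝔫 : (e τ₀ : R) * t g - t (τ₀ * g) ∉ 𝔫 := by
      intro hs𝔫
      have h1 := hstar g z hzΞ
      have h2 : ((e τ₀ : R) * t g - t (τ₀ * g)) • ρ g z ∈ pL p R Λ 1 :=
        hΞ𝔫 _ (by rwa [pow_one]) _ (hΞG g z hzΞ)
      have h3 : (((e τ₀ : R) - 1) * (e g : R)) • z ∈ pL p R Λ 1 := by
        have h4 := (pL p R Λ 1).sub_mem h2 h1
        rwa [sub_sub_cancel] at h4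
      have h5 : (((e g)⁻¹ : Rˣ) : R) * (((e τ₀ : R) - 1) * (e g : R)) = (e τ₀ : R) - 1 := by
        rw [mul_comm, mul_assoc, Units.mul_inv, mul_one]
      have h6 : ((e τ₀ : R) - 1) • z ∈ pL p R Λ 1 := by
        have h7 := (pL p R Λ 1).smul_mem (((e g)⁻¹ : Rˣ) : R) h3
        rwa [smul_smul, h5] at h7
      exact hz1 (H.cancel hωτ₀ h6)
    obtain ⟨s', i, hi, hsi⟩ := H.max.exists_inv hs𝔫
    refine ⟨s' * (((e τ₀ : R) - 1) * (e g : R)), fun y hy => ?_⟩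
    have h1 := (pL p R Λ 1).smul_mem s' (hstar g y hy)
    have h2 : i • ρ g y ∈ pL p R Λ 1 := hΞ𝔫 i (by rwa [pow_one]) _ (hΞG g y hy)
    have h3 : ρ g y - (s' * (((e τ₀ : R) - 1) * (e g : R))) • y =
        s' • (((e τ₀ : R) * t g - t (τ₀ * g)) • ρ g y - (((e τ₀ : R) - 1) * (e g : R)) • y)
          + i • ρ g y := by
      have h4 : ρ g y = (s' * ((e τ₀ : R) * t g - t (τ₀ * g)) + i) • ρ g y := by
        rw [hsi, one_smul]
      conv_lhs => rw [h4]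
      module
    rw [h3]
    exact (pL p R Λ 1).add_mem h1 h2
  choose c hc using hscal
  have hc𝔫 : ∀ g, c g ∉ 𝔫 := by
    intro g hcg
    apply hz1
    have h1 : ρ g z ∈ pL p R Λ 1 := by
      have h2 := (pL p R Λ 1).add_mem (hc g z hzΞ) (hΞ𝔫 (c g) (by rwa [pow_one]) z hzΞ)
      rwa [sub_add_cancel] at h2
    have h3 := map_mem_pL (ρ g⁻¹) h1
    rwa [← Module.End.mul_apply, ← map_mul, inv_mul_cancel, map_one, Module.End.one_apply] at h3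
  have hmul : ∀ g h, c (g * h) - c g * c h ∈ 𝔫 := by
    intro g h
    apply hann
    have h1 : (c (g * h) - c g * c h) • z =
        -(ρ (g * h) z - c (g * h) • z) + ρ g (ρ h z - c h • z) + c h • (ρ g z - c g • z) := by
      rw [map_mul, Module.End.mul_apply, map_sub, map_smul]
      module
    rw [h1]
    exact (pL p R Λ 1).add_mem ((pL p R Λ 1).add_mem ((pL p R Λ 1).neg_mem (hc _ z hzΞ))
      (map_mem_pL _ (hc h z hzΞ))) ((pL p R Λ 1).smul_mem _ (hc g z hzΞ))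
  have hquadc : ∀ g, c g * c g - t g * c g + (e g : R) ∈ 𝔫 := by
    intro g
    apply hann
    have hq : ρ g (ρ g z) = t g • ρ g z - (e g : R) • z := by
      rw [← sub_eq_zero, ← H.quad g z]
      abel
    have h1 : (c g * c g - t g * c g + (e g : R)) • z =
        -(ρ g (ρ g z - c g • z)) - c g • (ρ g z - c g • z) + t g • (ρ g z - c g • z) := by
      rw [map_sub, map_smul, hq]
      module
    rw [h1]
    exact (pL p R Λ 1).add_mem ((pL p R Λ 1).sub_mem ((pL p R Λ 1).neg_mem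
      (map_mem_pL _ (hc g z hzΞ))) ((pL p R Λ 1).smul_mem _ (hc g z hzΞ)))
      ((pL p R Λ 1).smul_mem _ (hc g z hzΞ))
  choose d i hi hdi using fun g => H.max.exists_inv (hc𝔫 g)
  have hinvq : ∀ g, Ideal.Quotient.mk 𝔫 (c g) * Ideal.Quotient.mk 𝔫 (d g) = 1 := by
    intro g
    rw [← map_mul, ← map_one (Ideal.Quotient.mk 𝔫), Ideal.Quotient.eq]
    have h1 : c g * d g - 1 = -i g := by linear_combination hdi g
    rw [h1]
    exact 𝔫.neg_mem (hi g)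
  let lam : G →* (R ⧸ 𝔫)ˣ := MonoidHom.mk'
    (fun g => Units.mkOfMulEqOne _ _ (hinvq g)) (fun g h => by
      apply Units.ext
      show Ideal.Quotient.mk 𝔫 (c (g * h))
        = Ideal.Quotient.mk 𝔫 (c g) * Ideal.Quotient.mk 𝔫 (c h)
      rw [← map_mul, Ideal.Quotient.eq]
      exact hmul g h)
  apply H.nc
  refine ⟨lam, fun g => ?_⟩
  show (Ideal.Quotient.mk 𝔫 (c g)) ^ 2 - Ideal.Quotient.mk 𝔫 (t g) * Ideal.Quotient.mk 𝔫 (c g)
    + Ideal.Quotient.mk 𝔫 (e g : R) = 0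
  rw [← map_pow, ← map_mul, ← map_sub, ← map_add, Ideal.Quotient.eq_zero_iff_mem, pow_two]
  exact hquadc g

/-- **Step 2, core.**  For `τ ∈ I` with `ω τ ≠ 1`, an element of the `𝔫`-primary part of `X n`
fixed by `τ` modulo `p ^ n` is zero modulo `p ^ n`. -/
theorem Hyp.step2a (H : Hyp p ρ e t ω 𝔫 I X) (n k : ℕ) {τ : G} (hτ : τ ∈ I) (hωτ : ω τ ≠ 1)
    (y : Λ) (hyT : InT p 𝔫 n k y) (hyX : y ∈ X n) (hyτ : ρ τ y - y ∈ pL p R Λ n) :
    y ∈ pL p R Λ n := by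
  classical
  by_contra hcon
  obtain ⟨m, rfl⟩ : ∃ m, n = m + 1 := by
    rcases n with _ | m
    · exact absurd (pL_zero _) hcon
    · exact ⟨m, rfl⟩
  have hred : ∀ (j : ℕ) (y : Λ), InT p 𝔫 (m + 1) k y → y ∈ X (m + 1) →
      ρ τ y - y ∈ pL p R Λ (m + 1) → (p : R) ^ j • y ∈ pL p R Λ (m + 1) →
      y ∉ pL p R Λ (m + 1) →
      ∃ y' : Λ, InT p 𝔫 (m + 1) k y' ∧ y' ∈ X (m + 1) ∧ ρ τ y' - y' ∈ pL p R Λ (m + 1) ∧
        (p : R) • y' ∈ pL p R Λ (m + 1) ∧ y' ∉ pL p R Λ (m + 1) := by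
    intro j
    induction j with
    | zero =>
      intro y _ _ _ h hy
      rw [pow_zero, one_smul] at h
      exact absurd h hy
    | succ j ih =>
      intro y h1 h2 h3 h4 hy
      by_cases h5 : (p : R) ^ j • y ∈ pL p R Λ (m + 1)
      · exact ih y h1 h2 h3 h5 hy
      · refine ⟨(p : R) ^ j • y, h1.smul _, ?_, ?_, ?_, h5⟩
        · rw [← Nat.cast_pow, Nat.cast_smul_eq_nsmul]
          exact (X (m + 1)).nsmul_mem h2 _
        · rw [map_smul, ← smul_sub]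
          exact (pL p R Λ (m + 1)).smul_mem _ h3
        · rw [smul_smul, ← pow_succ']
          exact h4
  obtain ⟨y', h1, h2, h3, h4, h5⟩ := hred (m + 1) y hyT hyX hyτ (pow_smul_mem_pL _ _) hcon
  obtain ⟨z, hz⟩ : ∃ z : Λ, y' = (p : R) ^ m • z := by
    obtain ⟨z, hz⟩ := mem_pL.mp h4
    refine ⟨z, ?_⟩
    have h6 : (p : R) • (y' - (p : R) ^ m • z) = 0 := by
      rw [smul_sub, hz, smul_smul, ← pow_succ']
      exact sub_self _
    exact sub_eq_zero.mp (H.tf _ h6)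
  have hz1 : z ∉ pL p R Λ 1 := by
    intro hz1
    obtain ⟨z', rfl⟩ := mem_pL_one.mp hz1
    apply h5
    rw [hz, smul_smul, ← pow_succ]
    exact pow_smul_mem_pL _ _
  let Ξ : AddSubgroup Λ :=
    { carrier := {u | InT p 𝔫 (m + 1) k ((p : R) ^ m • u) ∧ (p : R) ^ m • u ∈ X (m + 1)}
      zero_mem' := ⟨by
          rw [smul_zero]
          exact InT.of_mem (zero_mem _), by
          rw [smul_zero]
          exact zero_mem _⟩
      add_mem' := fun {u₁ u₂} h₁ h₂ => ⟨by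
          rw [smul_add]
          exact h₁.1.add h₂.1, by
          rw [smul_add]
          exact (X (m + 1)).add_mem h₁.2 h₂.2⟩
      neg_mem' := fun {u} h => ⟨by
          rw [smul_neg]
          exact h.1.neg, by
          rw [smul_neg]
          exact (X (m + 1)).neg_mem h.2⟩ }
  have hΞ : ∀ u, u ∈ Ξ ↔ InT p 𝔫 (m + 1) k ((p : R) ^ m • u) ∧ (p : R) ^ m • u ∈ X (m + 1) :=
    fun u => Iff.rfl
  have hΞX : ∀ u ∈ Ξ, u ∈ X 1 := fun u hu => H.sat m u ((hΞ u).mp hu).2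
  have hΞI : ∀ σ ∈ I, ∀ u ∈ Ξ, ρ σ u ∈ Ξ := by
    intro σ hσ u hu
    obtain ⟨hu1, hu2⟩ := (hΞ u).mp hu
    refine (hΞ _).mpr ⟨?_, ?_⟩
    · rw [← map_smul]
      exact hu1.map (ρ σ)
    · rw [← map_smul]
      have h6 := (X (m + 1)).add_mem (H.ga (m + 1) σ hσ ((p : R) ^ m • u)) hu2
      rwa [sub_add_cancel] at h6
  have hΞrel : ∀ σ ∈ I, ∀ u ∈ Ξ, (t σ - 1 - (e σ : R)) • u ∈ pL p R Λ 1 := by
    intro σ hσ u hu
    have h6 := H.step1 (m + 1) k hσ ((hΞ u).mp hu).1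
    rw [smul_comm] at h6
    exact div_pL H.tf m 1 h6
  have h0 := H.step0 Ξ hΞX hΞI hΞrel
  have hzΞ : z ∈ Ξ := (hΞ z).mpr ⟨by rw [← hz]; exact h1, by rw [← hz]; exact h2⟩
  have h7 : ρ τ z - (e τ : R) • z ∈ pL p R Λ 1 := h0 τ hτ z hzΞ
  have h8 : ρ τ z - z ∈ pL p R Λ 1 := by
    apply div_pL H.tf m 1
    rw [smul_sub, ← map_smul, ← hz]
    exact h3
  have h9 : ((e τ : R) - 1) • z ∈ pL p R Λ 1 := by
    have h10 := (pL p R Λ 1).sub_mem h8 h7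
    have h11 : ρ τ z - z - (ρ τ z - (e τ : R) • z) = ((e τ : R) - 1) • z := by
      rw [sub_smul, one_smul]
      abel
    rwa [h11] at h10
  exact hz1 (H.cancel hωτ h9)

/-- **Step 2.**  Inertia acts through `e` on the `𝔫`-primary part of `X n`. -/
theorem Hyp.step2 (H : Hyp p ρ e t ω 𝔫 I X) (n k : ℕ) {τ : G} (hτ : τ ∈ I) {x : Λ}
    (hxT : InT p 𝔫 n k x) (hxX : x ∈ X n) : ρ τ x - (e τ : R) • x ∈ pL p R Λ n := by
  have hb : ∀ τ' ∈ I, ω τ' ≠ 1 → ρ τ' x - (e τ' : R) • x ∈ pL p R Λ n := by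
    intro τ' hτ' hω
    apply H.step2a n k hτ' hω
    · exact (hxT.map (ρ τ')).sub (hxT.smul _)
    · have h1 : ρ τ' x - (e τ' : R) • x = (ρ τ' x - x) - ((e τ' : R) - 1) • x := by
        rw [sub_smul, one_smul]
        abel
      rw [h1]
      exact (X n).sub_mem (H.ga n τ' hτ' x) (H.e_sub_one_smul_mem_X τ' n hxX)
    · rw [H.a_identity τ' x]
      exact H.step1 n k hτ' (hxT.map (ρ τ'))
  by_cases hω : ω τ = 1
  · obtain ⟨τ₀, hτ₀, hωτ₀⟩ := H.exI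
    have hτ' : τ * τ₀⁻¹ ∈ I := I.mul_mem hτ (I.inv_mem hτ₀)
    have hω' : ω (τ * τ₀⁻¹) ≠ 1 := by
      rw [map_mul, hω, one_mul, map_inv]
      exact fun h => hωτ₀ (inv_eq_one.mp h)
    have h1 := hb τ₀ hτ₀ hωτ₀
    have h2 := hb (τ * τ₀⁻¹) hτ' hω'
    have h4 : ρ τ x = ρ (τ * τ₀⁻¹) (ρ τ₀ x) := by
      rw [← Module.End.mul_apply, ← map_mul, inv_mul_cancel_right]
    have h5 : (e τ : R) = (e τ₀ : R) * (e (τ * τ₀⁻¹) : R) := by
      rw [← Units.val_mul, mul_comm (e τ₀), ← map_mul, inv_mul_cancel_right]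
    have h3 : ρ τ x - (e τ : R) • x = ρ (τ * τ₀⁻¹) (ρ τ₀ x - (e τ₀ : R) • x)
        + (e τ₀ : R) • (ρ (τ * τ₀⁻¹) x - (e (τ * τ₀⁻¹) : R) • x) := by
      rw [h4, h5, map_sub, map_smul, smul_sub, smul_smul]
      abel
    rw [h3]
    exact (pL p R Λ n).add_mem (map_mem_pL _ h1) ((pL p R Λ n).smul_mem _ h2)
  · exact hb τ hτ hω

/-- **Step 3.**  The relation modulo `p ^ n`, up to an element outside `𝔫`. -/
theorem Hyp.step3 (H : Hyp p ρ e t ω 𝔫 I X) (n : ℕ) {σ τ : G} (hσ : σ ∈ I) (hτ : τ ∈ I) :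
    ∃ u : R, u ∉ 𝔫 ∧ ∀ x : Λ,
      u • (ρ σ (ρ τ x - x) - (e σ : R) • (ρ τ x - x)) ∈ pL p R Λ n := by
  obtain ⟨u, hu, k, hk⟩ := H.exists_u n
  refine ⟨u, hu, fun x => ?_⟩
  have h1 : InT p 𝔫 n k (ρ τ (u • x) - u • x) := ((hk x).map (ρ τ)).sub (hk x)
  have h2 := H.step2 n k hσ h1 (H.ga n τ hτ (u • x))
  have h3 : u • (ρ σ (ρ τ x - x) - (e σ : R) • (ρ τ x - x)) =
      ρ σ (ρ τ (u • x) - u • x) - (e σ : R) • (ρ τ (u • x) - u • x) := by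
    rw [map_smul (ρ τ) u x, ← smul_sub, map_smul, smul_comm (e σ : R) u, ← smul_sub]
  rw [h3]
  exact h2

/-- **Step 4.**  Passage to the limit by Artin-Rees. -/
theorem Hyp.step4 [IsNoetherianRing R] [Module.Finite R Λ] (H : Hyp p ρ e t ω 𝔫 I X)
    {σ τ : G} (hσ : σ ∈ I) (hτ : τ ∈ I) :
    ∃ U : R, U ∉ 𝔫 ∧ ∀ x : Λ, U • (ρ σ (ρ τ x - x) - (e σ : R) • (ρ τ x - x)) = 0 := by
  classical
  have hprime : 𝔫.IsPrime := H.max.isPrime
  have hx : ∀ x : Λ, ∃ U : R, U ∉ 𝔫 ∧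
      U • (ρ σ (ρ τ x - x) - (e σ : R) • (ρ τ x - x)) = 0 := by
    intro x
    obtain ⟨c, hc⟩ := Ideal.exists_pow_inf_eq_pow_smul (Ideal.span {(p : R)})
      (Submodule.span R {ρ σ (ρ τ x - x) - (e σ : R) • (ρ τ x - x)})
    obtain ⟨u, hu, hux⟩ := H.step3 (c + 1) hσ hτ
    have h1 : u • (ρ σ (ρ τ x - x) - (e σ : R) • (ρ τ x - x)) ∈
        Ideal.span {(p : R)} ^ (c + 1) • (⊤ : Submodule R Λ)
          ⊓ Submodule.span R {ρ σ (ρ τ x - x) - (e σ : R) • (ρ τ x - x)} := by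
      refine ⟨?_, Submodule.smul_mem _ u (Submodule.mem_span_singleton_self _)⟩
      obtain ⟨z, hz⟩ := mem_pL.mp (hux x)
      rw [hz]
      exact Submodule.smul_mem_smul (Ideal.pow_mem_pow (Ideal.mem_span_singleton_self _) _)
        Submodule.mem_top
    rw [hc (c + 1) (Nat.le_succ c), Nat.add_sub_cancel_left, pow_one] at h1
    have h2 : u • (ρ σ (ρ τ x - x) - (e σ : R) • (ρ τ x - x)) ∈ Ideal.span {(p : R)}
        • Submodule.span R {ρ σ (ρ τ x - x) - (e σ : R) • (ρ τ x - x)} :=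
      Submodule.smul_mono le_rfl inf_le_right h1
    rw [Submodule.ideal_span_singleton_smul, Submodule.mem_smul_pointwise_iff_exists] at h2
    obtain ⟨b, hb, hbu⟩ := h2
    obtain ⟨r, rfl⟩ := Submodule.mem_span_singleton.mp hb
    refine ⟨u - (p : R) * r, fun h => hu ?_, ?_⟩
    · have h3 := 𝔫.add_mem h (𝔫.mul_mem_right r H.pn)
      rwa [sub_add_cancel] at h3
    · rw [sub_smul, mul_smul, hbu, sub_self]
  choose Ufun hU hU0 using hx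
  obtain ⟨s, hs⟩ := (Module.finite_def.mp (inferInstance : Module.Finite R Λ))
  refine ⟨∏ x ∈ s, Ufun x, ?_, ?_⟩
  · intro h
    obtain ⟨x, _, hx⟩ := (hprime.prod_mem_iff).mp h
    exact hU x hx
  · let L : Λ →ₗ[R] Λ :=
      (∏ x ∈ s, Ufun x) • ((ρ σ - (e σ : R) • (1 : Module.End R Λ)) * (ρ τ - 1))
    have hL : ∀ x, L x = (∏ x ∈ s, Ufun x) • (ρ σ (ρ τ x - x) - (e σ : R) • (ρ τ x - x)) :=
      fun x => rfl
    have hL0 : L = 0 := by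
      apply LinearMap.ext_on hs
      intro x hx
      rw [hL, LinearMap.zero_apply, ← Finset.mul_prod_erase s Ufun hx, mul_comm, mul_smul, hU0,
        smul_zero]
    intro x
    rw [← hL, hL0, LinearMap.zero_apply]

/-- **(LAT), level-free core** (literal of record: S33 captain's RULING #4 (1)).  See the header
of the file. -/
theorem lat_core {p : ℕ} [Fact p.Prime] {R Λ G : Type*} [CommRing R] [IsNoetherianRing R]
    [AddCommGroup Λ] [Module R Λ] [Module.Finite R Λ] [Group G]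
    (hRp : Finite (R ⧸ Ideal.span {(p : R)}))
    (htf : ∀ x : Λ, (p : R) • x = 0 → x = 0)
    (ρ : G →* Module.End R Λ) (e : G →* Rˣ) (t : G → R)
    (hquad : ∀ g x, ρ g (ρ g x) - t g • ρ g x + (e g : R) • x = 0)
    (ω : G →* (ZMod p)ˣ)
    (hω : ∀ g, (e g : R) - (((ω g : ZMod p).val : ℕ) : R) ∈ Ideal.span {(p : R)})
    (hint : ∀ g n, ∃ a : ℤ, (e g : R) - (a : R) ∈ Ideal.span {(p : R) ^ n})
    (𝔫 : Ideal R) (h𝔫 : 𝔫.IsMaximal) (hp𝔫 : (p : R) ∈ 𝔫)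
    (I : Subgroup G) (hI : ∃ τ₀ ∈ I, ω τ₀ ≠ 1)
    (X : ℕ → AddSubgroup Λ)
    (hXp : ∀ n x, (p : R) ^ n • x ∈ X n)
    (hGA : ∀ n, ∀ τ ∈ I, ∀ x, ρ τ x - x ∈ X n)
    (hSAT : ∀ n x, (p : R) ^ n • x ∈ X (n + 1) → x ∈ X 1)
    (hGeoI : ∀ x ∈ X 1, (∀ τ ∈ I, ∃ y, ρ τ x - x = (p : R) • y) → ∃ y, x = (p : R) • y)
    (hGeoII0 : ∀ x ∈ X 1,
      (∀ σ ∈ I, ∀ τ ∈ I,
          ∃ y, ρ τ (ρ σ x - x) - (((ω τ : ZMod p).val : ℕ) : R) • (ρ σ x - x) = (p : R) • y) →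
        ∀ σ ∈ I, ω σ = 1 → ∃ y, ρ σ x - x = (p : R) • y)
    (hTR : ∀ σ ∈ I, t σ - 1 - (e σ : R) ∈ 𝔫)
    (hNC : ¬ ∃ lam : G →* (R ⧸ 𝔫)ˣ, ∀ g,
      ((lam g : (R ⧸ 𝔫)ˣ) : R ⧸ 𝔫) ^ 2 - Ideal.Quotient.mk 𝔫 (t g) * (lam g : R ⧸ 𝔫)
        + Ideal.Quotient.mk 𝔫 (e g : R) = 0) :
    ∀ σ ∈ I, ∀ τ ∈ I, ∃ U : R, U ∉ 𝔫 ∧
      ∀ x : Λ, U • (ρ σ (ρ τ x - x) - (e σ : R) • (ρ τ x - x)) = 0 := by
  have H : Hyp p ρ e t ω 𝔫 I X :=
    { fin := finite_quot_pL hRp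
      tf := htf
      quad := hquad
      om := hω
      int := hint
      max := h𝔫
      pn := hp𝔫
      exI := hI
      xp := hXp
      ga := hGA
      sat := hSAT
      geoI := hGeoI
      geoII0 := hGeoII0
      tr := hTR
      nc := hNC }
  intro σ hσ τ hτ
  exact H.step4 hσ hτ

end Lattice

end Fermat.Agent.S33.Lat.Core
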