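/-
S33 (ordinary at `p` when `p ∥ N`), row LAT.inst (helper246): the instance of the finite-level
lattice theorem `Lat/Core.lat_core` at the Hecke ring `Rp D S` of an `ESData` lattice of level
`N' * p`, acting on `ℤ_p^r`, with `ρ = rhoL`, `e = epsR`, `t = tauR` (S32/Transfer), `ω = ε mod p`,
`I` the inertia group of a valuation subring over `p` and

  `𝒳_n = { x ∈ ℤ_p^r | the class j_n (x mod p ^ n) lies in Contract.InX }`,

where `j` is the level-compatible family of injective equivariant maps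
`(ℤ/pⁿ)^r →+ Hom(K.A, ℤ/pⁿ)` of `S32/Link/KummerCompat`.

* `finite_quot_p`, `lattice_torsionFree`, `lattice_quad`, `epsR_sub_omega_mem`, `epsR_int`,
  `exists_inertia_omega` : the hypotheses of `lat_core` that only involve the lattice;
* `Xn_pow_smul`, `Xn_ga`, `Xn_sat` (iteration of the one-step saturation), `Xn_geoI`,
  `Xn_geoII0` : the five hypotheses on `𝒳_n` from the five statements of `Geo/Contract`;
* `ordRel_of_geo` : the ordinarity relation `W.Wiring.OrdRel` for one `(K, D, j, A, w)`;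
* `latExit_of_geoExit` : `Contract.GeoExit N' p → W.Wiring.LatExit (N' * p) p` for `p` odd.
-/
import Mathlib
import Fermat.Agent.S32.Transfer
import Fermat.Agent.S32.Link.KummerCompat
import Fermat.Agent.S33.W.Wiring
import Fermat.Agent.S33.W.TrNc
import Fermat.Agent.S33.Geo.Contract
import Fermat.Agent.S33.Lat.Core

set_option autoImplicit false

noncomputable section

namespace Fermat.Agent.S33.Lat.Inst

open Fermat.Agent.S30 Fermat.Agent.S30.Producer Fermat.Agent.S32.HeckeRing Fermat.Agent.S32.Tau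
  Fermat.Agent.S31.Glue Fermat.Agent.S32.Transfer Fermat.Agent.S33.W.Wiring Fermat.Agent.S33.Geo

open scoped Matrix

attribute [local instance] moduleLattice

section Padic

variable {p : ℕ} [Fact p.Prime]

/-- A finitely generated `ℤ_p`-module killed by `p` is finite. -/
theorem finite_of_fg_of_p_smul {M : Type*} [AddCommGroup M] [Module ℤ_[p] M]
    [Module.Finite ℤ_[p] M] (h : ∀ m : M, (p : ℤ_[p]) • m = 0) : Finite M := by
  classical
  obtain ⟨s, hs⟩ := (Module.Finite.fg_top : (⊤ : Submodule ℤ_[p] M).FG)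
  have hred : ∀ (a : ℤ_[p]) (m : M), a • m = (((PadicInt.toZMod a).val : ℕ) : ℤ_[p]) • m := by
    intro a m
    have hmem : a - (((PadicInt.toZMod a).val : ℕ) : ℤ_[p]) ∈ Ideal.span {(p : ℤ_[p])} := by
      rw [← PadicInt.maximalIdeal_eq_span_p, ← PadicInt.ker_toZMod, RingHom.mem_ker, map_sub,
        map_natCast, ZMod.natCast_zmod_val, sub_self]
    obtain ⟨d, hd⟩ := Ideal.mem_span_singleton'.mp hmem
    have h1 : (a - (((PadicInt.toZMod a).val : ℕ) : ℤ_[p])) • m = 0 := by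
      rw [← hd, mul_smul, h, smul_zero]
    rw [sub_smul, sub_eq_zero] at h1
    exact h1
  refine Finite.of_surjective
    (fun c : s → ZMod p => ∑ i : s, (((c i).val : ℕ) : ℤ_[p]) • (i : M)) ?_
  intro m
  have hm : m ∈ Submodule.span ℤ_[p] (s : Set M) := by rw [hs]; exact Submodule.mem_top
  obtain ⟨f, -, hf⟩ := Submodule.mem_span_finset.mp hm
  refine ⟨fun i => PadicInt.toZMod (f i), ?_⟩
  show ∑ i : s, (((PadicInt.toZMod (f i)).val : ℕ) : ℤ_[p]) • (i : M) = m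
  rw [← hf, Finset.sum_coe_sort s (fun i => (((PadicInt.toZMod (f i)).val : ℕ) : ℤ_[p]) • i)]
  exact Finset.sum_congr rfl fun i _ => (hred (f i) i).symm

/-- The mod `p` cyclotomic character. -/
def omega (p : ℕ) [Fact p.Prime] : GQ →* (ZMod p)ˣ :=
  (Units.map ((PadicInt.toZMod : ℤ_[p] →+* ZMod p) : ℤ_[p] →* ZMod p)).comp (CycloChar.eps p)

theorem omega_coe (g : GQ) : ((omega p g : (ZMod p)ˣ) : ZMod p) =
    PadicInt.toZMod ((CycloChar.eps p g : ℤ_[p]ˣ) : ℤ_[p]) := rfl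

theorem eps_sub_omega_mem (g : GQ) :
    ((CycloChar.eps p g : ℤ_[p]ˣ) : ℤ_[p]) - (((omega p g : ZMod p).val : ℕ) : ℤ_[p]) ∈
      Ideal.span {(p : ℤ_[p])} := by
  rw [← PadicInt.maximalIdeal_eq_span_p, ← PadicInt.ker_toZMod, RingHom.mem_ker, map_sub,
    map_natCast, ZMod.natCast_zmod_val, omega_coe, sub_self]

/-- `ε` modulo `p ^ 1` is the natural-number lift of `ω`. -/
theorem toZModPow_one_eps (g : GQ) :
    PadicInt.toZModPow 1 ((CycloChar.eps p g : ℤ_[p]ˣ) : ℤ_[p]) =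
      (((omega p g : ZMod p).val : ℕ) : ZMod (p ^ 1)) := by
  have h := eps_sub_omega_mem (p := p) g
  rw [← pow_one (p : ℤ_[p]), ← PadicInt.ker_toZModPow, RingHom.mem_ker, map_sub, sub_eq_zero,
    map_natCast] at h
  exact h

/-- Reduction of vectors modulo `p ^ n`. -/
def redv (p : ℕ) [Fact p.Prime] (r n : ℕ) : (Fin r → ℤ_[p]) →+ (Fin r → ZMod (p ^ n)) where
  toFun x i := PadicInt.toZModPow n (x i)
  map_zero' := funext fun _ => map_zero _
  map_add' _ _ := funext fun _ => map_add _ _ _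

variable {r : ℕ}

theorem redv_apply (n : ℕ) (x : Fin r → ℤ_[p]) (i : Fin r) :
    redv p r n x i = PadicInt.toZModPow n (x i) := rfl

theorem redv_mulVec (n : ℕ) (M : Matrix (Fin r) (Fin r) ℤ_[p]) (x : Fin r → ℤ_[p]) :
    redv p r n (M *ᵥ x) = M.map (PadicInt.toZModPow n) *ᵥ redv p r n x :=
  funext fun i => RingHom.map_mulVec (PadicInt.toZModPow n) M x i

theorem redv_natCast_smul (n a : ℕ) (x : Fin r → ℤ_[p]) :
    redv p r n ((a : ℤ_[p]) • x) = a • redv p r n x := by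
  funext i
  rw [redv_apply, Pi.smul_apply, Pi.smul_apply, redv_apply, smul_eq_mul, map_mul, map_natCast,
    nsmul_eq_mul]

theorem redv_eq_zero_iff (n : ℕ) (x : Fin r → ℤ_[p]) :
    redv p r n x = 0 ↔ ∃ y : Fin r → ℤ_[p], x = (p : ℤ_[p]) ^ n • y := by
  constructor
  · intro h
    have h1 : ∀ i, ∃ c : ℤ_[p], x i = (p : ℤ_[p]) ^ n * c := by
      intro i
      have h2 : x i ∈ RingHom.ker (PadicInt.toZModPow (p := p) n) := congrFun h i
      rw [PadicInt.ker_toZModPow] at h2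
      obtain ⟨c, hc⟩ := Ideal.mem_span_singleton'.mp h2
      exact ⟨c, by rw [← hc, mul_comm]⟩
    choose y hy using h1
    exact ⟨y, funext fun i => by rw [Pi.smul_apply, smul_eq_mul, hy i]⟩
  · rintro ⟨y, rfl⟩
    funext i
    have h2 : (p : ℤ_[p]) ^ n * y i ∈ RingHom.ker (PadicInt.toZModPow (p := p) n) := by
      rw [PadicInt.ker_toZModPow]
      exact Ideal.mul_mem_right _ _ (Ideal.mem_span_singleton_self _)
    exact h2

theorem cast_redv (n : ℕ) (x : Fin r → ℤ_[p]) :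
    (fun i => ZMod.castHom (pow_dvd_pow p (Nat.le_succ n)) (ZMod (p ^ n)) (redv p r (n + 1) x i)) =
      redv p r n x :=
  funext fun i => RingHom.congr_fun (PadicInt.zmod_cast_comp_toZModPow n (n + 1) (Nat.le_succ n))
    (x i)

end Padic

section Ring

variable {N p : ℕ} [NeZero N] [Fact p.Prime] (D : ESData N p) (S : Finset ℕ)

instance instModuleFiniteRp : Module.Finite ℤ_[p] (Rp D S) :=
  Module.Finite.iff_fg.mpr (IsNoetherian.noetherian (Subalgebra.toSubmodule (Rp D S)))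

instance instIsNoetherianRingRp : IsNoetherianRing (Rp D S) :=
  isNoetherian_of_tower ℤ_[p] (inferInstance : IsNoetherian ℤ_[p] (Rp D S))

theorem natCast_coe (a : ℕ) : (((a : Rp D S) : Rp D S) : Matrix (Fin D.r) (Fin D.r) ℤ_[p]) =
    algebraMap ℤ_[p] (Matrix (Fin D.r) (Fin D.r) ℤ_[p]) (a : ℤ_[p]) := by
  rw [map_natCast]
  rfl

theorem natCast_smul' (a : ℕ) (x : Fin D.r → ℤ_[p]) : (a : Rp D S) • x = (a : ℤ_[p]) • x := by
  rw [smul_eq_mulVec, natCast_coe, Algebra.algebraMap_eq_smul_one, Matrix.smul_mulVec,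
    Matrix.one_mulVec]

theorem finite_quot_p : Finite (Rp D S ⧸ Ideal.span {(p : Rp D S)}) := by
  refine finite_of_fg_of_p_smul (p := p) fun m => ?_
  obtain ⟨x, rfl⟩ := Ideal.Quotient.mk_surjective m
  rw [← Ideal.Quotient.mkₐ_eq_mk ℤ_[p], ← map_smul, Ideal.Quotient.mkₐ_eq_mk,
    Ideal.Quotient.eq_zero_iff_mem, Algebra.smul_def, map_natCast]
  exact Ideal.mul_mem_right _ _ (Ideal.mem_span_singleton_self _)


theorem natCast_pow_smul (n : ℕ) (x : Fin D.r → ℤ_[p]) :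
    (p : Rp D S) ^ n • x = ((p ^ n : ℕ) : ℤ_[p]) • x := by
  rw [← Nat.cast_pow, natCast_smul']

theorem algebraMap_mem_span_pow {x : ℤ_[p]} {n : ℕ} (hx : x ∈ Ideal.span {(p : ℤ_[p]) ^ n}) :
    algebraMap ℤ_[p] (Rp D S) x ∈ Ideal.span {(p : Rp D S) ^ n} := by
  obtain ⟨c, rfl⟩ := Ideal.mem_span_singleton'.mp hx
  rw [map_mul, map_pow, map_natCast]
  exact Ideal.mul_mem_left _ _ (Ideal.mem_span_singleton_self _)

theorem redv_one_eq_zero_iff (x : Fin D.r → ℤ_[p]) :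
    redv p D.r 1 x = 0 ↔ ∃ y : Fin D.r → ℤ_[p], x = (p : Rp D S) • y := by
  rw [redv_eq_zero_iff]
  refine exists_congr fun y => ?_
  rw [natCast_smul', pow_one]

theorem redv_p_smul (y : Fin D.r → ℤ_[p]) : redv p D.r 1 ((p : Rp D S) • y) = 0 :=
  (redv_one_eq_zero_iff D S _).mpr ⟨y, rfl⟩

/-! ### The hypotheses of `lat_core` that only involve the lattice -/

theorem lattice_torsionFree (x : Fin D.r → ℤ_[p]) (hx : (p : Rp D S) • x = 0) : x = 0 := by
  have hp : p.Prime := Fact.out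
  rw [natCast_smul'] at hx
  funext i
  have h1 := congrFun hx i
  rw [Pi.smul_apply, smul_eq_mul, Pi.zero_apply] at h1
  exact (mul_eq_zero.mp h1).resolve_left (by exact_mod_cast hp.ne_zero)

theorem lattice_quad (hdens : FrobDensity) (hpS : p ∈ S) (hNS : ∀ q : ℕ, q.Prime → q ∣ N → q ∈ S)
    (g : GQ) (x : Fin D.r → ℤ_[p]) :
    rhoL D S g (rhoL D S g x) - tauR D S hdens hpS hNS g • rhoL D S g x
      + ((epsR D S g : (Rp D S)ˣ) : Rp D S) • x = 0 := by
  rw [rhoL_apply, rhoL_apply, smul_eq_mulVec, smul_eq_mulVec, epsR_coe]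
  show D.ρ g *ᵥ D.ρ g *ᵥ x - tauD D g *ᵥ D.ρ g *ᵥ x + _ = 0
  rw [tauD, Matrix.add_mulVec, Matrix.smul_mulVec, Matrix.mulVec_mulVec x (D.ρ g⁻¹), ← map_mul,
    inv_mul_cancel, map_one, Matrix.one_mulVec, Algebra.algebraMap_eq_smul_one,
    Matrix.smul_mulVec, Matrix.one_mulVec]
  abel

theorem epsR_sub_omega_mem (g : GQ) :
    ((epsR D S g : (Rp D S)ˣ) : Rp D S) - (((omega p g : ZMod p).val : ℕ) : Rp D S) ∈
      Ideal.span {(p : Rp D S)} := by
  have h1 := algebraMap_mem_span_pow D S (n := 1)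
    (by rw [pow_one]; exact eps_sub_omega_mem (p := p) g)
  rw [pow_one, map_sub, map_natCast] at h1
  exact h1

theorem epsR_int (g : GQ) (n : ℕ) :
    ∃ a : ℤ, ((epsR D S g : (Rp D S)ˣ) : Rp D S) - (a : Rp D S) ∈ Ideal.span {(p : Rp D S) ^ n} := by
  refine ⟨((PadicInt.appr ((CycloChar.eps p g : ℤ_[p]ˣ) : ℤ_[p]) n : ℕ) : ℤ), ?_⟩
  have h1 := algebraMap_mem_span_pow D S
    (PadicInt.appr_spec n ((CycloChar.eps p g : ℤ_[p]ˣ) : ℤ_[p]))
  rw [map_sub, map_natCast] at h1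
  rw [Int.cast_natCast]
  exact h1

end Ring

theorem exists_inertia_omega {p : ℕ} [Fact p.Prime] (hp2 : p ≠ 2) (P : ValuationSubring Qb)
    (hP : P.LiesOverPrime p) : ∃ τ₀ ∈ P.inertiaSubgroupIn ℚ, omega p τ₀ ≠ 1 := by
  obtain ⟨τ₀, hτ₀, hu⟩ := Fermat.Agent.S33.W.TrNc.exists_inertia_eps hp2 P hP
  refine ⟨τ₀, hτ₀, fun h1 => ?_⟩
  have h2 : PadicInt.toZMod ((CycloChar.eps p τ₀ : ℤ_[p]ˣ) : ℤ_[p]) = 1 := by
    rw [← omega_coe, h1, Units.val_one]
  have h3 : ((CycloChar.eps p τ₀ : ℤ_[p]ˣ) : ℤ_[p]) - 1 ∈ IsLocalRing.maximalIdeal ℤ_[p] := by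
    rw [← PadicInt.ker_toZMod, RingHom.mem_ker, map_sub, h2, map_one, sub_self]
  exact (IsLocalRing.mem_maximalIdeal _).mp h3 hu

section Main

variable {N' p : ℕ} [NeZero N'] [Fact p.Prime]

/-- The subgroup `𝒳_n` of the lattice: the vectors whose class modulo `p ^ n` lies in the kernel
of reduction `InX`. -/
def Xn (K : KummerSystem (N' * p) p) (A : ValuationSubring Qb)
    (w : FN (N' * p) ≃ₐ[Qb] FN (N' * p)) (hsub : Contract.SubStatement K A w) {r : ℕ}
    (j : ∀ n : ℕ, (Fin r → ZMod (p ^ n)) →+ (K.A →+ ZMod (p ^ n))) (n : ℕ) :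
    AddSubgroup (Fin r → ℤ_[p]) where
  carrier := {x | Contract.InX K A w n (j n (redv p r n x))}
  zero_mem' := by
    show Contract.InX K A w n (j n (redv p r n 0))
    rw [map_zero, map_zero]
    exact (hsub n).1
  add_mem' := fun {x y} hx hy => by
    show Contract.InX K A w n (j n (redv p r n (x + y)))
    rw [map_add, map_add]
    exact (hsub n).2.1 _ _ hx hy
  neg_mem' := fun {x} hx => by
    show Contract.InX K A w n (j n (redv p r n (-x)))
    rw [map_neg, map_neg]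
    exact (hsub n).2.2 _ hx

theorem mem_Xn (K : KummerSystem (N' * p) p) (A : ValuationSubring Qb)
    (w : FN (N' * p) ≃ₐ[Qb] FN (N' * p)) (hsub : Contract.SubStatement K A w) {r : ℕ}
    (j : ∀ n : ℕ, (Fin r → ZMod (p ^ n)) →+ (K.A →+ ZMod (p ^ n))) (n : ℕ)
    (x : Fin r → ℤ_[p]) :
    x ∈ Xn K A w hsub j n ↔ Contract.InX K A w n (j n (redv p r n x)) := Iff.rfl

variable (K : KummerSystem (N' * p) p) (D : ESData (N' * p) p) (S : Finset ℕ)
  (j : ∀ n : ℕ, (Fin D.r → ZMod (p ^ n)) →+ (K.A →+ ZMod (p ^ n)))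
  (hjact : ∀ (n : ℕ) (σ : GQ) (v : Fin D.r → ZMod (p ^ n)),
    j n ((D.ρ σ).map (PadicInt.toZModPow n) *ᵥ v) = K.act n σ (j n v))

include hjact in
theorem j_rhoL (n : ℕ) (σ : GQ) (z : Fin D.r → ℤ_[p]) :
    j n (redv p D.r n (rhoL D S σ z)) = K.act n σ (j n (redv p D.r n z)) := by
  rw [rhoL_apply, redv_mulVec, hjact]

include hjact in
theorem j_rhoL_sub (n : ℕ) (σ : GQ) (z : Fin D.r → ℤ_[p]) :
    j n (redv p D.r n (rhoL D S σ z - z)) =
      K.act n σ (j n (redv p D.r n z)) - j n (redv p D.r n z) := by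
  rw [map_sub, map_sub, j_rhoL K D S j hjact]

theorem j_pow_smul (n m : ℕ) (x : Fin D.r → ℤ_[p]) :
    j n (redv p D.r n ((p : Rp D S) ^ m • x)) = p ^ m • j n (redv p D.r n x) := by
  rw [natCast_pow_smul, redv_natCast_smul, map_nsmul]

theorem j_pow_smul_self (n : ℕ) (x : Fin D.r → ℤ_[p]) :
    j n (redv p D.r n ((p : Rp D S) ^ n • x)) = 0 := by
  rw [natCast_pow_smul, redv_natCast_smul]
  have h0 : p ^ n • redv p D.r n x = 0 := by
    funext i
    rw [Pi.smul_apply, nsmul_eq_mul, ZMod.natCast_self, zero_mul, Pi.zero_apply]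
  rw [h0, map_zero]

variable (A : ValuationSubring Qb) (w : FN (N' * p) ≃ₐ[Qb] FN (N' * p))
  (hsub : Contract.SubStatement K A w)

theorem Xn_pow_smul (n : ℕ) (x : Fin D.r → ℤ_[p]) :
    (p : Rp D S) ^ n • x ∈ Xn K A w hsub j n := by
  rw [mem_Xn, j_pow_smul_self]
  exact (hsub n).1

include hjact in
theorem Xn_ga (hGA : Contract.GAStatement K A w) (n : ℕ) (τ : GQ)
    (hτ : τ ∈ A.inertiaSubgroupIn ℚ) (x : Fin D.r → ℤ_[p]) :
    rhoL D S τ x - x ∈ Xn K A w hsub j n := by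
  rw [mem_Xn, j_rhoL_sub K D S j hjact]
  exact hGA n _ τ hτ

theorem Xn_sat (hSAT : Contract.SATStatement K A w)
    (hjred : ∀ (n : ℕ) (v : Fin D.r → ZMod (p ^ (n + 1))),
      BettiLimit.red K.A p n (j (n + 1) v) =
        j n (fun i => ZMod.castHom (pow_dvd_pow p (Nat.le_succ n)) (ZMod (p ^ n)) (v i)))
    (n : ℕ) (x : Fin D.r → ℤ_[p]) (hx : (p : Rp D S) ^ n • x ∈ Xn K A w hsub j (n + 1)) :
    x ∈ Xn K A w hsub j 1 := by
  induction n generalizing x with
  | zero =>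
    rw [pow_zero, one_smul] at hx
    exact hx
  | succ n ih =>
    apply ih
    rw [mem_Xn, j_pow_smul] at hx ⊢
    have h1 := hSAT n _ hx
    rw [hjred, cast_redv] at h1
    exact h1

include hjact in
theorem Xn_geoI (hj1 : Function.Injective (j 1)) (hGI : Contract.GeoI K A w)
    (x : Fin D.r → ℤ_[p]) (hx : x ∈ Xn K A w hsub j 1)
    (hinv : ∀ τ ∈ A.inertiaSubgroupIn ℚ, ∃ y, rhoL D S τ x - x = (p : Rp D S) • y) :
    ∃ y, x = (p : Rp D S) • y := by
  rw [mem_Xn] at hx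
  have h1 : ∀ τ : GQ, τ ∈ A.inertiaSubgroupIn ℚ →
      K.act 1 τ (j 1 (redv p D.r 1 x)) = j 1 (redv p D.r 1 x) := by
    intro τ hτ
    obtain ⟨y, hy⟩ := hinv τ hτ
    have h2 := j_rhoL_sub K D S j hjact 1 τ x
    rw [hy, redv_p_smul, map_zero] at h2
    exact (sub_eq_zero.mp h2.symm)
  have h3 := hGI _ hx h1
  rw [← map_zero (j 1)] at h3
  exact (redv_one_eq_zero_iff D S x).mp (hj1 h3)

include hjact in
theorem Xn_geoII0 (hj1 : Function.Injective (j 1)) (hGII : Contract.GeoII0 K A w)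
    (x : Fin D.r → ℤ_[p]) (hx : x ∈ Xn K A w hsub j 1)
    (heig : ∀ σ ∈ A.inertiaSubgroupIn ℚ, ∀ τ ∈ A.inertiaSubgroupIn ℚ, ∃ y,
      rhoL D S τ (rhoL D S σ x - x) - (((omega p τ : ZMod p).val : ℕ) : Rp D S) •
        (rhoL D S σ x - x) = (p : Rp D S) • y)
    (σ : GQ) (hσ : σ ∈ A.inertiaSubgroupIn ℚ) (hωσ : omega p σ = 1) :
    ∃ y, rhoL D S σ x - x = (p : Rp D S) • y := by
  have hp : p.Prime := Fact.out
  rw [mem_Xn] at hx
  have h1 : K.act 1 σ (j 1 (redv p D.r 1 x)) = j 1 (redv p D.r 1 x) := by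
    refine hGII _ hx ?_ σ hσ ?_
    · intro σ' hσ' τ hτ a ha
      obtain ⟨y, hy⟩ := heig σ' hσ' τ hτ
      rw [← j_rhoL_sub K D S j hjact, ← j_rhoL K D S j hjact]
      have h2 : rhoL D S τ (rhoL D S σ' x - x) =
          (((omega p τ : ZMod p).val : ℕ) : Rp D S) • (rhoL D S σ' x - x) + (p : Rp D S) • y :=
        (sub_eq_iff_eq_add'.mp hy)
      have h3 : (((omega p τ : ZMod p).val : ℕ) : ZMod (p ^ 1)) = (a : ZMod (p ^ 1)) := by
        rw [← toZModPow_one_eps]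
        refine CycloChar.toZModPow_eps_eq p τ 1 a (ha _ ?_)
        have := CycloChar.zeta_pow p 1
        rwa [pow_one] at this
      have h5 : ∀ v : Fin D.r → ZMod (p ^ 1), ((omega p τ : ZMod p).val : ℕ) • v = a • v := by
        intro v
        funext i
        rw [Pi.smul_apply, Pi.smul_apply, nsmul_eq_mul, nsmul_eq_mul, h3]
      rw [h2, map_add, redv_p_smul, add_zero, natCast_smul', redv_natCast_smul, h5, map_nsmul]
    · intro μ hμ
      have h2 := CycloChar.eps_spec p σ 1 (t := μ) (by rw [pow_one]; exact hμ)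
      have h1lt : Fact (1 < p ^ 1) := ⟨by rw [pow_one]; exact hp.one_lt⟩
      rw [toZModPow_one_eps, hωσ, Units.val_one, ZMod.val_one, Nat.cast_one, ZMod.val_one,
        pow_one] at h2
      exact h2
  have h4 := j_rhoL_sub K D S j hjact 1 σ x
  rw [h1, sub_self, ← map_zero (j 1)] at h4
  exact (redv_one_eq_zero_iff D S _).mp (hj1 h4)

omit K j A w in
/-- From the conclusion of `lat_core` to the matrix identity of `OrdRel`. -/
theorem ordRel_matrix (σ τ : GQ) (U : Rp D S)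
    (hU : ∀ x : Fin D.r → ℤ_[p], U • (rhoL D S σ (rhoL D S τ x - x)
      - ((epsR D S σ : (Rp D S)ˣ) : Rp D S) • (rhoL D S τ x - x)) = 0) :
    (U : Matrix (Fin D.r) (Fin D.r) ℤ_[p]) *
      ((D.ρ σ - algebraMap ℤ_[p] (Matrix (Fin D.r) (Fin D.r) ℤ_[p])
          ((CycloChar.eps p σ : ℤ_[p]ˣ) : ℤ_[p])) * (D.ρ τ - 1)) = 0 := by
  apply Matrix.toLin'.injective
  refine LinearMap.ext fun x => ?_
  have h1 := hU x
  rw [rhoL_apply, rhoL_apply, smul_eq_mulVec, smul_eq_mulVec, epsR_coe] at h1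
  rw [Matrix.toLin'_apply, map_zero, LinearMap.zero_apply, ← Matrix.mulVec_mulVec,
    ← Matrix.mulVec_mulVec, Matrix.sub_mulVec, Matrix.sub_mulVec, Matrix.one_mulVec]
  exact h1

include hjact hsub in
/-- **The instance of `lat_core`**: for one Kummer system `K`, the `ESData` lattice `D` linked to
it by a level-compatible family `j`, a valuation subring `P` over `p` and a swap `w` for which
the five geometric statements hold, the ordinarity relation holds at every maximal ideal of the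
Hecke ring over `p` with (TR) and (NC). -/
theorem ordRel_of_geo (hp2 : p ≠ 2) (hj : ∀ n, Function.Injective (j n))
    (hjred : ∀ (n : ℕ) (v : Fin D.r → ZMod (p ^ (n + 1))),
      BettiLimit.red K.A p n (j (n + 1) v) =
        j n (fun i => ZMod.castHom (pow_dvd_pow p (Nat.le_succ n)) (ZMod (p ^ n)) (v i)))
    (hA : A.LiesOverPrime p) (hGA : Contract.GAStatement K A w)
    (hSAT : Contract.SATStatement K A w) (hGI : Contract.GeoI K A w)
    (hGII : Contract.GeoII0 K A w) (hdens : FrobDensity) (hpS : p ∈ S)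
    (hNS : ∀ q : ℕ, q.Prime → q ∣ N' * p → q ∈ S) (𝔫 : Ideal (Rp D S)) (h𝔫 : 𝔫.IsMaximal)
    (hp𝔫 : (p : Rp D S) ∈ 𝔫) (hTR : TR D S hdens hpS hNS A 𝔫) (hNC : NC D S hdens hpS hNS 𝔫) :
    OrdRel D S A 𝔫 := by
  have key := Core.lat_core (p := p) (R := Rp D S) (Λ := Fin D.r → ℤ_[p]) (G := GQ)
    (finite_quot_p D S) (lattice_torsionFree D S) (rhoL D S) (epsR D S)
    (tauR D S hdens hpS hNS) (lattice_quad D S hdens hpS hNS) (omega p)
    (epsR_sub_omega_mem D S) (epsR_int D S) 𝔫 h𝔫 hp𝔫 (A.inertiaSubgroupIn ℚ)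
    (exists_inertia_omega hp2 A hA) (Xn K A w hsub j) (Xn_pow_smul K D S j A w hsub)
    (Xn_ga K D S j hjact A w hsub hGA) (Xn_sat K D S j A w hsub hSAT hjred)
    (Xn_geoI K D S j hjact A w hsub (hj 1) hGI)
    (Xn_geoII0 K D S j hjact A w hsub (hj 1) hGII) hTR hNC
  intro σ hσ τ hτ
  obtain ⟨U, hU, hx⟩ := key σ hσ τ hτ
  exact ⟨U, hU, ordRel_matrix D S σ τ U hx⟩

end Main

/-- **The lattice exit of S33 from the geometric exit** (`p` odd, level `N' * p`). -/
theorem latExit_of_geoExit {N' p : ℕ} [NeZero N'] [Fact p.Prime] (hp2 : p ≠ 2)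
    (h : Contract.GeoExit N' p) : Fermat.Agent.S33.W.Wiring.LatExit (N' * p) p := by
  obtain ⟨K, hK⟩ := h
  obtain ⟨D, j, hj, hjact, hjred⟩ := Fermat.Agent.S32.Link.exists_esData_link_kummer_compat K
  intro P hP
  obtain ⟨w, hsub, hGA, hSAT, hGI, hGII⟩ := hK P hP
  exact ⟨D, fun S hdens hpS hNS 𝔫 h𝔫 hp𝔫 hTR hNC =>
    ordRel_of_geo K D S j hjact P w hsub hp2 hj hjred hP hGA hSAT hGI hGII hdens hpS hNS 𝔫 h𝔫
      hp𝔫 hTR hNC⟩

end Fermat.Agent.S33.Lat.Inst
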