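/-
S33 / LAT leaf (Mathlib-only), S33 RULING #3 (2): the Krull / Artin-Rees leaf for `Lat/Core.lean`.

`exists_notMem_smul_eq_zero`: `R` noetherian, `Λ` a finite `R`-module, `p ∈ 𝔫` with `𝔫` prime,
and `y : Λ` such that for every `n` some `u ∉ 𝔫` has `u • y ∈ p ^ n • Λ`.  Then some `U ∉ 𝔫`
kills `y`.

Proof: Artin-Rees (`Ideal.exists_pow_inf_eq_pow_smul`) for `I = (p)` and `N = R y` gives `c`
with `I ^ (c + 1) • ⊤ ⊓ N = I • (I ^ c • ⊤ ⊓ N) ≤ I • N = R (p • y)`.  With `u ∉ 𝔫` and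
`u • y = p ^ (c + 1) • z` we get `u • y = r • p • y`, and `U := u - r * p` works.
-/
import Mathlib

set_option autoImplicit false

namespace Fermat.Agent.S33.Lat.Krull

theorem pow_mem_span_pow {R : Type*} [CommRing R] (p : R) (c : ℕ) :
    p ^ (c + 1) ∈ Ideal.span {p} ^ (c + 1) :=
  Ideal.pow_mem_pow (Ideal.mem_span_singleton_self p) (c + 1)

theorem pow_smul_mem_span_pow_smul_top {R Λ : Type*} [CommRing R] [AddCommGroup Λ] [Module R Λ]
    (p : R) (c : ℕ) (z : Λ) :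
    p ^ (c + 1) • z ∈ Ideal.span {p} ^ (c + 1) • (⊤ : Submodule R Λ) :=
  Submodule.smul_mem_smul (pow_mem_span_pow p c) Submodule.mem_top

theorem smul_mem_inf_of_eq {R Λ : Type*} [CommRing R] [AddCommGroup Λ] [Module R Λ] (p : R)
    (c : ℕ) (y : Λ) (u : R) (z : Λ) (huz : u • y = p ^ (c + 1) • z) :
    u • y ∈ (Ideal.span {p} ^ (c + 1) • (⊤ : Submodule R Λ)) ⊓ Submodule.span R {y} :=
  Submodule.mem_inf.mpr ⟨huz ▸ pow_smul_mem_span_pow_smul_top p c z,
    Submodule.smul_mem _ _ (Submodule.mem_span_singleton_self y)⟩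

theorem span_smul_inf_le {R Λ : Type*} [CommRing R] [AddCommGroup Λ] [Module R Λ] (p : R)
    (c : ℕ) (y : Λ) :
    Ideal.span {p} • ((Ideal.span {p} ^ c • (⊤ : Submodule R Λ)) ⊓ Submodule.span R {y})
      ≤ Submodule.span R {p • y} := by
  refine (Submodule.smul_mono le_rfl inf_le_right).trans ?_
  rw [Submodule.span_smul_span, Set.singleton_smul_singleton]

/-- Artin-Rees for a principal ideal and a cyclic submodule, in elementwise form: there is `c`
such that every element of `R y` which is a `p ^ (c + 1)`-multiple is an `R`-multiple of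
`p • y`. -/
theorem exists_forall_pow_smul_eq {R Λ : Type*} [CommRing R] [IsNoetherianRing R]
    [AddCommGroup Λ] [Module R Λ] [Module.Finite R Λ] (p : R) (y : Λ) :
    ∃ c : ℕ, ∀ (u : R) (z : Λ), u • y = p ^ (c + 1) • z → ∃ r : R, u • y = r • p • y := by
  obtain ⟨c, hc⟩ :=
    Ideal.exists_pow_inf_eq_pow_smul (Ideal.span {p}) (Submodule.span R {y} : Submodule R Λ)
  refine ⟨c, fun u z huz => ?_⟩
  have h1 := smul_mem_inf_of_eq p c y u z huz
  have h1' : u • y ∈ Ideal.span {p} ^ (c + 1 - c) •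
      ((Ideal.span {p} ^ c • (⊤ : Submodule R Λ)) ⊓ Submodule.span R {y}) := by
    rw [← hc (c + 1) (Nat.le_succ c)]; exact h1
  have e : c + 1 - c = 1 := by omega
  rw [e, pow_one] at h1'
  obtain ⟨r, hr⟩ := Submodule.mem_span_singleton.mp (span_smul_inf_le p c y h1')
  exact ⟨r, hr.symm⟩

/-- **Krull leaf.**  `R` noetherian, `Λ` finite over `R`, `p ∈ 𝔫` prime, and for every `n` a
multiple `u • y` of `y` with `u ∉ 𝔫` is divisible by `p ^ n` in `Λ`.  Then `y` is killed by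
some `U ∉ 𝔫`. -/
theorem exists_notMem_smul_eq_zero {R Λ : Type*} [CommRing R] [IsNoetherianRing R]
    [AddCommGroup Λ] [Module R Λ] [Module.Finite R Λ] (p : R) (𝔫 : Ideal R) (h𝔫 : 𝔫.IsPrime)
    (hp : p ∈ 𝔫) (y : Λ)
    (h : ∀ n : ℕ, ∃ u : R, u ∉ 𝔫 ∧ ∃ z : Λ, u • y = p ^ n • z) :
    ∃ U : R, U ∉ 𝔫 ∧ U • y = 0 := by
  have _h𝔫 := h𝔫
  obtain ⟨c, hc⟩ := exists_forall_pow_smul_eq (R := R) p y
  obtain ⟨u, hu, z, huz⟩ := h (c + 1)
  obtain ⟨r, hr⟩ := hc u z huz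
  refine ⟨u - r * p, fun hmem => hu ?_, ?_⟩
  · have hu' : u = (u - r * p) + r * p := by ring
    rw [hu']
    exact 𝔫.add_mem hmem (𝔫.mul_mem_left r hp)
  · rw [sub_smul, mul_smul, hr, sub_self]

end Fermat.Agent.S33.Lat.Krull
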