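import Mathlib
import Fermat.Agent.S33.Lat.Finite

/-!
# S33, brick (LAT.level): the level `n` instance of `lat_fin`

`Λ` an `R`-module without `p`-torsion with an `R`-linear action `ρ` of `G` satisfying
`g² - t(g) g + e(g) = 0` (`e : G →* Rˣ` with integer values modulo every power of `p`), and a
family `X n ≤ Λ` of subgroups (the preimages of the kernels of reduction `𝒳_n ≤ Λ / p ^ n`).
`lat_level` applies `Finite.lat_fin` to the quotient `Λ ⧸ p ^ n Λ`: if `x : Λ` is `𝔫`-primary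
modulo `p ^ n`, then `(ρ σ - e σ) (ρ τ - 1) x ∈ p ^ n Λ` for `σ, τ ∈ I`.

The binders are those of the lattice statement `lat_core` (with `hGeoII0`), minus the
finiteness hypotheses, which are not needed at a fixed level.
-/

set_option autoImplicit false

namespace Fermat.Agent.S33.Lat.Level

open Fermat.Agent.S33.Lat.Finite

section Quot

variable {R Λ G : Type*} [CommRing R] [AddCommGroup Λ] [Module R Λ] [Group G]

/-- The submodule `a Λ`. -/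
def powSub (R Λ : Type*) [CommRing R] [AddCommGroup Λ] [Module R Λ] (a : R) : Submodule R Λ :=
  LinearMap.range (LinearMap.lsmul R Λ a)

theorem mem_powSub {a : R} {x : Λ} : x ∈ powSub R Λ a ↔ ∃ z : Λ, a • z = x :=
  Iff.rfl

theorem map_mem_powSub (a : R) (f : Module.End R Λ) {x : Λ} (hx : x ∈ powSub R Λ a) :
    f x ∈ powSub R Λ a := by
  obtain ⟨z, rfl⟩ := mem_powSub.1 hx
  exact mem_powSub.2 ⟨f z, (map_smul f a z).symm⟩

theorem mk_eq_zero_iff (a : R) (y : Λ) :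
    (Submodule.Quotient.mk y : Λ ⧸ powSub R Λ a) = 0 ↔ ∃ z : Λ, a • z = y :=
  (Submodule.Quotient.mk_eq_zero _).trans mem_powSub

/-- The endomorphism induced on the quotient `Λ ⧸ a Λ`. -/
def quotEnd (a : R) (f : Module.End R Λ) : Module.End R (Λ ⧸ powSub R Λ a) :=
  (powSub R Λ a).mapQ (powSub R Λ a) f (fun _ hx => map_mem_powSub a f hx)

theorem quotEnd_mk (a : R) (f : Module.End R Λ) (x : Λ) :
    quotEnd a f (Submodule.Quotient.mk x) = Submodule.Quotient.mk (f x) :=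
  rfl

theorem quotEnd_one (a : R) : quotEnd a (1 : Module.End R Λ) = 1 :=
  LinearMap.ext fun x => by
    obtain ⟨x, rfl⟩ := Submodule.Quotient.mk_surjective _ x
    rw [quotEnd_mk, Module.End.one_apply, Module.End.one_apply]

theorem quotEnd_mul (a : R) (f g : Module.End R Λ) :
    quotEnd a (f * g) = quotEnd a f * quotEnd a g :=
  LinearMap.ext fun x => by
    obtain ⟨x, rfl⟩ := Submodule.Quotient.mk_surjective _ x
    rw [quotEnd_mk, Module.End.mul_apply, Module.End.mul_apply, quotEnd_mk, quotEnd_mk]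

/-- The representation induced on the quotient `Λ ⧸ a Λ`. -/
def quotRep (a : R) (ρ : G →* Module.End R Λ) : Representation R G (Λ ⧸ powSub R Λ a) where
  toFun g := quotEnd a (ρ g)
  map_one' := by
    show quotEnd a (ρ 1) = 1
    rw [map_one, quotEnd_one]
  map_mul' g h := by
    show quotEnd a (ρ (g * h)) = quotEnd a (ρ g) * quotEnd a (ρ h)
    rw [map_mul, quotEnd_mul]

theorem quotRep_mk (a : R) (ρ : G →* Module.End R Λ) (g : G) (x : Λ) :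
    quotRep a ρ g (Submodule.Quotient.mk x) = Submodule.Quotient.mk (ρ g x) :=
  rfl

/-- The image of an additive subgroup in the quotient `Λ ⧸ a Λ`. -/
def imgQ (a : R) (Y : AddSubgroup Λ) : AddSubgroup (Λ ⧸ powSub R Λ a) where
  carrier := {y | ∃ x ∈ Y, (Submodule.Quotient.mk x : Λ ⧸ powSub R Λ a) = y}
  add_mem' := by
    rintro _ _ ⟨x, hx, rfl⟩ ⟨y, hy, rfl⟩
    exact ⟨x + y, Y.add_mem hx hy, Submodule.Quotient.mk_add _⟩
  zero_mem' := ⟨0, Y.zero_mem, Submodule.Quotient.mk_zero _⟩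
  neg_mem' := by
    rintro _ ⟨x, hx, rfl⟩
    exact ⟨-x, Y.neg_mem hx, Submodule.Quotient.mk_neg _⟩

/-- Cancellation of a power of a non-zero-divisor on `Λ`. -/
theorem eq_of_pow_smul_eq {a : R} (htf : ∀ x : Λ, a • x = 0 → x = 0) :
    ∀ (m : ℕ) (x y : Λ), a ^ m • x = a ^ m • y → x = y := by
  intro m
  induction m with
  | zero =>
    intro x y h
    rwa [pow_zero, one_smul, one_smul] at h
  | succ m ih =>
    intro x y h
    apply ih
    apply sub_eq_zero.1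
    apply htf
    rw [smul_sub, smul_smul, smul_smul, ← pow_succ', h, sub_self]

end Quot

section Main

variable {p : ℕ} [Fact p.Prime] {R Λ G : Type*} [CommRing R] [AddCommGroup Λ] [Module R Λ]
  [Group G]

/-- **(LAT) at level `n`.**  If `x` is `𝔫`-primary modulo `p ^ n`, then
`(ρ σ - e σ) (ρ τ - 1) x ∈ p ^ n Λ` for `σ, τ ∈ I`. -/
theorem lat_level
    (htf : ∀ x : Λ, (p : R) • x = 0 → x = 0)
    (ρ : G →* Module.End R Λ) (e : G →* Rˣ) (t : G → R)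
    (hquad : ∀ g x, ρ g (ρ g x) - t g • ρ g x + (e g : R) • x = 0)
    (ω : G →* (ZMod p)ˣ)
    (hω : ∀ g, (e g : R) - (((ω g : ZMod p).val : ℕ) : R) ∈ Ideal.span {(p : R)})
    (hint : ∀ g n, ∃ a : ℤ, (e g : R) - (a : R) ∈ Ideal.span {(p : R) ^ n})
    (𝔫 : Ideal R) (h𝔫 : 𝔫.IsMaximal) (hp𝔫 : (p : R) ∈ 𝔫)
    (I : Subgroup G) (hI : ∃ τ₀ ∈ I, ω τ₀ ≠ 1)
    (X : ℕ → AddSubgroup Λ) (_hXp : ∀ n x, (p : R) ^ n • x ∈ X n)
    (hGA : ∀ n, ∀ τ ∈ I, ∀ x, ρ τ x - x ∈ X n)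
    (hSAT : ∀ n x, (p : R) ^ n • x ∈ X (n + 1) → x ∈ X 1)
    (hGeoI : ∀ x ∈ X 1, (∀ τ ∈ I, ∃ y, ρ τ x - x = (p : R) • y) → ∃ y, x = (p : R) • y)
    (hGeoII0 : ∀ x ∈ X 1,
      (∀ σ ∈ I, ∀ τ ∈ I, ∃ y, ρ τ (ρ σ x - x) - (((ω τ : ZMod p).val : ℕ) : R) • (ρ σ x - x)
        = (p : R) • y) →
      ∀ σ ∈ I, ω σ = 1 → ∃ y, ρ σ x - x = (p : R) • y)
    (hTR : ∀ σ ∈ I, t σ - 1 - (e σ : R) ∈ 𝔫)
    (hNC : ¬ ∃ lam : G →* (R ⧸ 𝔫)ˣ, ∀ g, ((lam g : (R ⧸ 𝔫)ˣ) : R ⧸ 𝔫) ^ 2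
      - Ideal.Quotient.mk 𝔫 (t g) * (lam g : R ⧸ 𝔫) + Ideal.Quotient.mk 𝔫 (e g : R) = 0)
    (n : ℕ) (x : Λ) (hx : ∃ k : ℕ, ∀ a ∈ 𝔫 ^ k, ∃ z : Λ, a • x = (p : R) ^ n • z)
    {σ τ : G} (hσ : σ ∈ I) (hτ : τ ∈ I) :
    ∃ z : Λ, ρ σ (ρ τ x - x) - (e σ : R) • (ρ τ x - x) = (p : R) ^ n • z := by
  have hp : p.Prime := Fact.out
  have : NeZero p := ⟨hp.ne_zero⟩
  have := h𝔫
  rcases Nat.eq_zero_or_pos n with hn | hn
  · subst hn
    exact ⟨ρ σ (ρ τ x - x) - (e σ : R) • (ρ τ x - x), by rw [pow_zero, one_smul]⟩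
  obtain ⟨m, rfl⟩ : ∃ m, n = m + 1 := ⟨n - 1, by omega⟩
  -- integer lifts of `e` modulo `q = p ^ (m + 1)`
  choose εf hεf using fun g => hint g (m + 1)
  obtain ⟨q, hq⟩ : ∃ q : R, q = (p : R) ^ (m + 1) := ⟨_, rfl⟩
  rw [← hq] at hεf hx ⊢
  have hspan : ∀ {r : R}, r ∈ Ideal.span {q} → ∀ y : Λ, r • y ∈ powSub R Λ q := by
    intro r hr y
    obtain ⟨c, rfl⟩ := Ideal.mem_span_singleton'.1 hr
    exact mem_powSub.2 ⟨c • y, by rw [smul_smul, mul_comm]⟩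
  have hq𝔫 : q ∈ 𝔫 := by
    rw [hq]
    exact 𝔫.pow_mem_of_mem hp𝔫 (m + 1) (Nat.succ_pos m)
  have hspan𝔫 : ∀ {r : R}, r ∈ Ideal.span {q} → r ∈ 𝔫 := fun {r} hr =>
    (Ideal.span_le.2 (Set.singleton_subset_iff.2 hq𝔫)) hr
  have hp𝔫' : ∀ {r : R}, r ∈ Ideal.span {(p : R)} → r ∈ 𝔫 := fun {r} hr =>
    (Ideal.span_le.2 (Set.singleton_subset_iff.2 hp𝔫)) hr
  -- integers in `𝔫` are divisible by `p`
  have hint𝔫 : ∀ k : ℤ, (k : R) ∈ 𝔫 → (p : ℤ) ∣ k := by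
    intro k hk
    by_contra hnd
    have h1 : Nat.Coprime p k.natAbs :=
      (Nat.Prime.coprime_iff_not_dvd hp).2 (fun hd => hnd (Int.natCast_dvd.2 hd))
    have h2 : IsCoprime (p : ℤ) k := by
      rw [Int.isCoprime_iff_gcd_eq_one, Int.gcd_eq_natAbs, Int.natAbs_natCast]
      exact h1
    obtain ⟨u, v, huv⟩ := h2
    have h3 : ((u * (p : ℤ) + v * k : ℤ) : R) ∈ 𝔫 := by
      push_cast
      exact 𝔫.add_mem (𝔫.mul_mem_left _ hp𝔫) (𝔫.mul_mem_left _ hk)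
    rw [huv, Int.cast_one] at h3
    exact h𝔫.ne_top ((Ideal.eq_top_iff_one _).2 h3)
  have hω' : ∀ g, ((ω g : (ZMod p)ˣ) : ZMod p) = ((εf g : ℤ) : ZMod p) := by
    intro g
    have h1 : ((εf g - (((ω g : ZMod p).val : ℕ) : ℤ) : ℤ) : R) ∈ 𝔫 := by
      have h2 : ((εf g - (((ω g : ZMod p).val : ℕ) : ℤ) : ℤ) : R)
          = ((e g : R) - (((ω g : ZMod p).val : ℕ) : R)) - ((e g : R) - (εf g : R)) := by
        push_cast
        ring
      rw [h2]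
      exact 𝔫.sub_mem (hp𝔫' (hω g)) (hspan𝔫 (hεf g))
    have h3 := hint𝔫 _ h1
    have h4 : ((εf g : ℤ) : ZMod p) = ((((ω g : ZMod p).val : ℕ) : ℤ) : ZMod p) := by
      rw [← sub_eq_zero, ← Int.cast_sub, ZMod.intCast_zmod_eq_zero_iff_dvd]
      exact h3
    rw [h4, Int.cast_natCast, ZMod.natCast_zmod_val]
  -- the integer `εf g` acts on the quotient as `e g`
  have hεmk : ∀ (g : G) (y : Λ),
      εf g • (Submodule.Quotient.mk y : Λ ⧸ powSub R Λ q)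
        = Submodule.Quotient.mk ((e g : R) • y) := by
    intro g y
    rw [← Int.cast_smul_eq_zsmul R, ← Submodule.Quotient.mk_smul, Submodule.Quotient.eq,
      ← sub_smul, ← neg_sub]
    exact hspan (neg_mem (hεf g)) y
  have hnat : ∀ y : Λ, p • (Submodule.Quotient.mk y : Λ ⧸ powSub R Λ q)
      = Submodule.Quotient.mk ((p : R) • y) := by
    intro y
    rw [← Nat.cast_smul_eq_nsmul R p, Submodule.Quotient.mk_smul]
  -- the hypotheses of `lat_fin` on `Λ ⧸ q Λ`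
  have hrel' : ∀ g (y : Λ ⧸ powSub R Λ q),
      quotRep q ρ g (quotRep q ρ g y) - t g • quotRep q ρ g y + εf g • y = 0 := by
    intro g y
    obtain ⟨y, rfl⟩ := Submodule.Quotient.mk_surjective _ y
    rw [quotRep_mk, quotRep_mk, hεmk g y, ← Submodule.Quotient.mk_smul,
      ← Submodule.Quotient.mk_sub, ← Submodule.Quotient.mk_add, hquad,
      Submodule.Quotient.mk_zero]
  have hεmul' : ∀ g h, ∀ y : Λ ⧸ powSub R Λ q, εf (g * h) • y = εf g • εf h • y := by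
    intro g h y
    obtain ⟨y, rfl⟩ := Submodule.Quotient.mk_surjective _ y
    rw [hεmk (g * h) y, hεmk h y, hεmk g ((e h : R) • y), map_mul, Units.val_mul, mul_smul]
  have hTR' : ∀ s ∈ I, t s - 1 - (εf s : R) ∈ 𝔫 := by
    intro s hs
    have h1 : t s - 1 - (εf s : R) = (t s - 1 - (e s : R)) + ((e s : R) - (εf s : R)) := by
      ring
    rw [h1]
    exact 𝔫.add_mem (hTR s hs) (hspan𝔫 (hεf s))
  have hNC' : ¬ ∃ lam : G →* (R ⧸ 𝔫)ˣ, ∀ g, ((lam g : (R ⧸ 𝔫)ˣ) : R ⧸ 𝔫) ^ 2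
      - Ideal.Quotient.mk 𝔫 (t g) * (lam g : R ⧸ 𝔫) + ((εf g : ℤ) : R ⧸ 𝔫) = 0 := by
    rintro ⟨lam, hlam⟩
    refine hNC ⟨lam, fun g => ?_⟩
    have h1 : Ideal.Quotient.mk 𝔫 (e g : R) = ((εf g : ℤ) : R ⧸ 𝔫) := by
      rw [← map_intCast (Ideal.Quotient.mk 𝔫), Ideal.Quotient.eq]
      exact hspan𝔫 (hεf g)
    rw [h1]
    exact hlam g
  have hGA' : ∀ s ∈ I, ∀ y : Λ ⧸ powSub R Λ q, quotRep q ρ s y - y ∈ imgQ q (X (m + 1)) := by
    intro s hs y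
    obtain ⟨y, rfl⟩ := Submodule.Quotient.mk_surjective _ y
    exact ⟨ρ s y - y, hGA (m + 1) s hs y, by rw [Submodule.Quotient.mk_sub, quotRep_mk]⟩
  -- a `p`-torsion element of the image of `X (m + 1)` is `p ^ m • z` with `z ∈ X 1`
  have hlift : ∀ y ∈ imgQ q (X (m + 1)), p • y = 0 →
      ∃ z ∈ X 1, y = Submodule.Quotient.mk ((p : R) ^ m • z) := by
    rintro _ ⟨y, hy, rfl⟩ hpy
    rw [hnat, mk_eq_zero_iff] at hpy
    obtain ⟨w, hw⟩ := hpy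
    have h1 : y = (p : R) ^ m • w := by
      apply sub_eq_zero.1
      apply htf
      rw [smul_sub, ← hw, hq, smul_smul, ← pow_succ', sub_self]
    exact ⟨w, hSAT m w (by rw [← h1]; exact hy), by rw [h1]⟩
  have hGeoI' : ∀ y ∈ imgQ q (X (m + 1)), p • y = 0 →
      (∀ s ∈ I, quotRep q ρ s y = y) → y = 0 := by
    intro y hy hpy hfix
    obtain ⟨z, hz, rfl⟩ := hlift y hy hpy
    have h1 : ∀ s ∈ I, ∃ w, ρ s z - z = (p : R) • w := by
      intro s hs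
      have h2 := hfix s hs
      rw [quotRep_mk, Submodule.Quotient.eq, mem_powSub] at h2
      obtain ⟨w, hw⟩ := h2
      refine ⟨w, eq_of_pow_smul_eq htf m _ _ ?_⟩
      rw [smul_sub, ← map_smul, ← hw, hq, smul_smul, ← pow_succ]
    obtain ⟨w, hw⟩ := hGeoI z hz h1
    rw [mk_eq_zero_iff]
    exact ⟨w, by rw [hw, hq, smul_smul, ← pow_succ]⟩
  have hGeoII0' : ∀ y ∈ imgQ q (X (m + 1)), p • y = 0 →
      (∀ s ∈ I, ∀ s' ∈ I, quotRep q ρ s' (quotRep q ρ s y - y)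
        = εf s' • (quotRep q ρ s y - y)) →
      ∀ s ∈ I, ω s = 1 → quotRep q ρ s y = y := by
    intro y hy hpy hprem s hs hs1
    obtain ⟨z, hz, rfl⟩ := hlift y hy hpy
    have h1 : ∀ s₁ ∈ I, ∀ s₂ ∈ I, ∃ w, ρ s₂ (ρ s₁ z - z)
        - (((ω s₂ : ZMod p).val : ℕ) : R) • (ρ s₁ z - z) = (p : R) • w := by
      intro s₁ hs₁ s₂ hs₂
      have h2 := hprem s₁ hs₁ s₂ hs₂
      rw [quotRep_mk, ← Submodule.Quotient.mk_sub, quotRep_mk, hεmk, Submodule.Quotient.eq,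
        mem_powSub] at h2
      obtain ⟨w, hw⟩ := h2
      have hD : ρ s₁ ((p : R) ^ m • z) - (p : R) ^ m • z = (p : R) ^ m • (ρ s₁ z - z) := by
        rw [map_smul, smul_sub]
      rw [hD, map_smul, smul_comm (e s₂ : R) ((p : R) ^ m), ← smul_sub] at hw
      have h3 : ρ s₂ (ρ s₁ z - z) - (e s₂ : R) • (ρ s₁ z - z) = (p : R) • w := by
        apply eq_of_pow_smul_eq htf m
        rw [← hw, hq, smul_smul, ← pow_succ]
      obtain ⟨c, hc⟩ := Ideal.mem_span_singleton'.1 (hω s₂)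
      refine ⟨w + c • (ρ s₁ z - z), ?_⟩
      have h4 : (((ω s₂ : ZMod p).val : ℕ) : R) = (e s₂ : R) - c * (p : R) := by
        rw [hc]
        ring
      rw [h4, sub_smul, smul_add, ← h3, mul_smul, smul_comm c (p : R)]
      abel
    obtain ⟨w, hw⟩ := hGeoII0 z hz h1 s hs hs1
    rw [quotRep_mk, Submodule.Quotient.eq, mem_powSub]
    refine ⟨w, ?_⟩
    rw [map_smul, ← smul_sub, hw, hq, smul_smul, ← pow_succ]
  have hx' : ∃ k : ℕ, ∀ a ∈ 𝔫 ^ k, a • (Submodule.Quotient.mk x : Λ ⧸ powSub R Λ q) = 0 := by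
    obtain ⟨k, hk⟩ := hx
    refine ⟨k, fun a ha => ?_⟩
    rw [← Submodule.Quotient.mk_smul, mk_eq_zero_iff]
    obtain ⟨z, hz⟩ := hk a ha
    exact ⟨z, hz.symm⟩
  have key := lat_fin 𝔫 hp𝔫 (quotRep q ρ) t εf ω hω' hrel' hεmul' I hI hTR' hNC'
    (imgQ q (X (m + 1))) hGA' hGeoI' hGeoII0' hx' hσ hτ
  rw [quotRep_mk, ← Submodule.Quotient.mk_sub, quotRep_mk, hεmk, ← Submodule.Quotient.mk_sub,
    mk_eq_zero_iff] at key
  obtain ⟨z, hz⟩ := key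
  exact ⟨z, hz.symm⟩

end Main

end Fermat.Agent.S33.Lat.Level
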