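import Mathlib

/-!
# S33 / LAT leaf: killing the `𝔫`-primary part of `R ⧸ (p ^ n)`

(helper249; row S33.LAT leaf `Primary` of the S33 captain's ruling #3 (2).)  Mathlib only.

`R` a commutative ring, `p ∈ R` with `R ⧸ (p)` finite, `𝔫` a maximal ideal containing `p`.
Then for every `n` there are `u ∉ 𝔫` and `k` with `u * 𝔫 ^ k ⊆ (p ^ n)`: the finite ring
`R ⧸ (p ^ n)` is Artinian, so the powers of the image of `𝔫` are stationary, and Nakayama's lemma
on the stationary power gives `u ≡ 1` modulo `𝔫` killing it.  No noetherian hypothesis on `R`.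

* `finite_quotient_span_pow` : `R ⧸ (p ^ n)` is finite;
* `exists_pow_eq_pow_succ`   : in a finite commutative ring, `I ^ k = I ^ (k + 1)` for some `k`;
* `exists_notMem_mul_pow_le` : the exit.
-/

set_option autoImplicit false

namespace Fermat.Agent.S33.Lat.Primary

/-- `R ⧸ (p ^ n)` is finite as soon as `R ⧸ (p)` is. -/
theorem finite_quotient_span_pow {R : Type*} [CommRing R] (p : R)
    (hfin : Finite (R ⧸ Ideal.span {p})) (n : ℕ) : Finite (R ⧸ Ideal.span {p ^ n}) := by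
  rw [← Ideal.span_singleton_pow]
  exact Ideal.finite_quotient_pow (Submodule.fg_span_singleton p) n

/-- In a finite commutative ring the powers of an ideal are eventually stationary. -/
theorem exists_pow_eq_pow_succ {A : Type*} [CommRing A] [Finite A] (I : Ideal A) :
    ∃ k : ℕ, I ^ k = I ^ (k + 1) := by
  have : IsArtinian A A := isArtinian_of_finite
  obtain ⟨k, hk⟩ := IsArtinian.monotone_stabilizes
    (⟨fun k => OrderDual.toDual (I ^ k), fun _ _ hab => Ideal.pow_le_pow_right hab⟩ :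
      ℕ →o (Submodule A A)ᵒᵈ)
  exact ⟨k, congrArg OrderDual.ofDual (hk (k + 1) (Nat.le_succ k))⟩

/-- **The exit.**  `R ⧸ (p)` finite, `𝔫` maximal, `p ∈ 𝔫`: for every `n` some `u ∉ 𝔫` kills a
power of `𝔫` modulo `p ^ n`. -/
theorem exists_notMem_mul_pow_le {R : Type*} [CommRing R] (p : R)
    (hfin : Finite (R ⧸ Ideal.span {p})) (𝔫 : Ideal R) (h𝔫 : 𝔫.IsMaximal) (hp : p ∈ 𝔫) (n : ℕ) :
    ∃ u : R, u ∉ 𝔫 ∧ ∃ k : ℕ, ∀ a ∈ 𝔫 ^ k, u * a ∈ Ideal.span {p ^ n} := by
  have h1 : (1 : R) ∉ 𝔫 := fun h => h𝔫.ne_top ((Ideal.eq_top_iff_one 𝔫).mpr h)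
  rcases Nat.eq_zero_or_pos n with rfl | hn
  · refine ⟨1, h1, 0, fun a _ => ?_⟩
    rw [pow_zero, Ideal.span_singleton_one]
    exact Submodule.mem_top
  have : Finite (R ⧸ Ideal.span {p ^ n}) := finite_quotient_span_pow p hfin n
  have hJ : Ideal.span {p ^ n} ≤ 𝔫 :=
    (Ideal.span_singleton_le_iff_mem 𝔫).mpr (Ideal.pow_mem_of_mem 𝔫 hp n hn)
  have hπ : Function.Surjective (Ideal.Quotient.mk (Ideal.span {p ^ n})) :=
    Ideal.Quotient.mk_surjective
  obtain ⟨k, hk⟩ := exists_pow_eq_pow_succ (𝔫.map (Ideal.Quotient.mk (Ideal.span {p ^ n})))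
  have hle : 𝔫.map (Ideal.Quotient.mk (Ideal.span {p ^ n})) ^ k ≤
      𝔫.map (Ideal.Quotient.mk (Ideal.span {p ^ n})) •
        𝔫.map (Ideal.Quotient.mk (Ideal.span {p ^ n})) ^ k := by
    rw [smul_eq_mul, ← pow_succ', ← hk]
  obtain ⟨r, hr1, hr0⟩ := Submodule.exists_sub_one_mem_and_smul_eq_zero_of_fg_of_le_smul
    (𝔫.map (Ideal.Quotient.mk (Ideal.span {p ^ n})))
    (𝔫.map (Ideal.Quotient.mk (Ideal.span {p ^ n})) ^ k) (IsNoetherian.noetherian _) hle
  obtain ⟨u, rfl⟩ := hπ r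
  refine ⟨u, fun hu => ?_, k, fun a ha => ?_⟩
  · obtain ⟨x, hx, hxu⟩ := (Ideal.mem_map_iff_of_surjective _ hπ).mp hr1
    have h2 : x - (u - 1) ∈ Ideal.span {p ^ n} := by
      rw [← Ideal.Quotient.eq, hxu, map_sub, map_one]
    have h3 : (1 : R) = u - x + (x - (u - 1)) := by ring
    rw [h3] at h1
    exact h1 (𝔫.add_mem (𝔫.sub_mem hu hx) (hJ h2))
  · have h2 : Ideal.Quotient.mk (Ideal.span {p ^ n}) a ∈
        𝔫.map (Ideal.Quotient.mk (Ideal.span {p ^ n})) ^ k := by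
      rw [← Ideal.map_pow]
      exact Ideal.mem_map_of_mem _ ha
    have h3 := hr0 _ h2
    rw [smul_eq_mul, ← map_mul] at h3
    exact Ideal.Quotient.eq_zero_iff_mem.mp h3

end Fermat.Agent.S33.Lat.Primary
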